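import Mathlib

/-!
# S51, piece (A): the rational points of `y ^ 2 = x (x + 80) (x + 81)`
-/

namespace Fermat.Agent.S51Lib

namespace DescentAux

theorem coprime_sq_pair {P Q V : ℤ} (hc : IsCoprime P Q) (h : P * Q = V ^ 2) (hV : V ≠ 0) :
    ∃ ε s t : ℤ, (ε = 1 ∨ ε = -1) ∧ P = ε * s ^ 2 ∧ Q = ε * t ^ 2 := by
  obtain ⟨s, hs⟩ := Int.sq_of_isCoprime hc h
  obtain ⟨t, ht⟩ := Int.sq_of_isCoprime hc.symm (by rw [mul_comm]; exact h)
  rcases hs with hs | hs <;> rcases ht with ht | ht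
  · exact ⟨1, s, t, Or.inl rfl, by rw [hs]; ring, by rw [ht]; ring⟩
  · exfalso
    apply hV
    have : V ^ 2 + (s * t) ^ 2 = 0 := by rw [← h, hs, ht]; ring
    nlinarith [sq_nonneg V, sq_nonneg (s * t)]
  · exfalso
    apply hV
    have : V ^ 2 + (s * t) ^ 2 = 0 := by rw [← h, hs, ht]; ring
    nlinarith [sq_nonneg V, sq_nonneg (s * t)]
  · exact ⟨-1, s, t, Or.inr rfl, by rw [hs]; ring, by rw [ht]; ring⟩

theorem prime_five : Prime (5 : ℤ) := by
  rw [Int.prime_iff_natAbs_prime]; norm_num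

theorem prime_three : Prime (3 : ℤ) := by
  rw [Int.prime_iff_natAbs_prime]; norm_num

theorem prime_two : Prime (2 : ℤ) := by
  rw [Int.prime_iff_natAbs_prime]; norm_num

theorem five_part {P R V : ℤ} (hc : IsCoprime P R) (h : P * (P + 5 * R) = V ^ 2) (hV : V ≠ 0) :
    ∃ D s t : ℤ, (D = 1 ∨ D = -1 ∨ D = 5 ∨ D = -5) ∧ P = D * s ^ 2 ∧ P + 5 * R = D * t ^ 2 := by
  by_cases h5 : (5 : ℤ) ∣ P
  · obtain ⟨P', rfl⟩ := h5
    have h5V : (5 : ℤ) ∣ V := by
      apply prime_five.dvd_of_dvd_pow (n := 2)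
      rw [← h]
      exact ⟨P' * (5 * P' + 5 * R), by ring⟩
    obtain ⟨V', rfl⟩ := h5V
    have hV' : V' ≠ 0 := by rintro rfl; exact hV (by simp)
    have h' : P' * (P' + R) = V' ^ 2 := by nlinarith
    have hc' : IsCoprime P' R := hc.of_mul_left_right
    have hc'' : IsCoprime P' (P' + R) := by
      have := hc'.add_mul_left_right 1
      simpa [add_comm] using this
    obtain ⟨ε, s, t, hε, hs, ht⟩ := coprime_sq_pair hc'' h' hV'
    refine ⟨5 * ε, s, t, ?_, by rw [hs]; ring, by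
      have : 5 * P' + 5 * R = 5 * (P' + R) := by ring
      rw [this, ht]; ring⟩
    rcases hε with rfl | rfl <;> simp
  · have hc5 : IsCoprime P 5 := ((prime_five.irreducible.coprime_iff_not_dvd).mpr h5).symm
    have hc' : IsCoprime P (5 * R) := hc5.mul_right hc
    have hc'' : IsCoprime P (P + 5 * R) := by
      have := hc'.add_mul_left_right 1
      simpa [add_comm] using this
    obtain ⟨ε, s, t, hε, hs, ht⟩ := coprime_sq_pair hc'' h hV
    refine ⟨ε, s, t, ?_, hs, ht⟩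
    rcases hε with rfl | rfl <;> simp

theorem three_mod {A m Z B e : ℤ} (hZ : (Z : ZMod 3) = 1) (hB : (B : ZMod 3) = 2)
    (hm : (m : ZMod 3) = 0) (h : e ^ 2 = A * (A + m * Z) * B) : (3 : ℤ) ∣ A := by
  have h1 : ((e : ZMod 3)) ^ 2 = (A : ZMod 3) * ((A : ZMod 3) + 0 * 1) * 2 := by
    have := congrArg (fun n : ℤ => (n : ZMod 3)) h
    simp only [Int.cast_pow, Int.cast_mul, Int.cast_add, hZ, hB, hm] at this
    exact this
  have h2 : ∀ a e : ZMod 3, e ^ 2 = a * (a + 0 * 1) * 2 → a = 0 := by decide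
  have h3 := h2 _ _ h1
  exact_mod_cast (ZMod.intCast_zmod_eq_zero_iff_dvd A 3).mp h3

theorem three_step {A m Z B e : ℤ} (hA : (3 : ℤ) ∣ A) (h : e ^ 2 = A * (A + 3 * m * Z) * B) :
    ∃ A' e' : ℤ, A = 3 * A' ∧ e = 3 * e' ∧ e' ^ 2 = A' * (A' + m * Z) * B := by
  obtain ⟨A', rfl⟩ := hA
  have h3 : (3 : ℤ) ∣ e := by
    apply prime_three.dvd_of_dvd_pow (n := 2)
    rw [h]
    exact ⟨A' * (3 * A' + 3 * m * Z) * B, by ring⟩
  obtain ⟨e', rfl⟩ := h3
  refine ⟨A', e', rfl, rfl, ?_⟩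
  nlinarith

theorem C_square {A Z b e : ℤ} (hZ : Z = b ^ 2) (hb : b ≠ 0) (hc : IsCoprime A Z) (he : e ≠ 0)
    (h : e ^ 2 = A * (A + 81 * Z) * (A + 80 * Z)) : ∃ d : ℤ, A + 81 * Z = d ^ 2 := by
  have hZpos : 0 < Z := by rw [hZ]; positivity
  have hepos : 0 < e ^ 2 := by positivity
  have hCpos : 0 < A + 81 * Z := by
    by_contra hC
    rw [not_lt] at hC
    have hA : A ≤ 0 := by linarith
    have hB : A + 80 * Z ≤ 0 := by linarith
    have h1 : 0 ≤ A * (A + 81 * Z) := mul_nonneg_of_nonpos_of_nonpos hA hC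
    have h2 : A * (A + 81 * Z) * (A + 80 * Z) ≤ 0 := mul_nonpos_of_nonneg_of_nonpos h1 hB
    linarith
  by_cases h3 : (3 : ℤ) ∣ A
  · -- the 3-adic chain
    have hb3 : ¬ (3 : ℤ) ∣ b := by
      intro hb3
      have h3Z : (3 : ℤ) ∣ Z := by rw [hZ]; exact dvd_pow hb3 two_ne_zero
      exact prime_three.not_isUnit (hc.isUnit_of_dvd' h3 h3Z)
    have hbz : (b : ZMod 3) ≠ 0 := by
      intro hb0
      exact hb3 (by exact_mod_cast (ZMod.intCast_zmod_eq_zero_iff_dvd b 3).mp hb0)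
    have hZ3 : (Z : ZMod 3) = 1 := by
      have : ∀ c : ZMod 3, c ≠ 0 → c ^ 2 = 1 := by decide
      rw [hZ]; push_cast; exact this _ hbz
    have hA3 : (A : ZMod 3) = 0 := (ZMod.intCast_zmod_eq_zero_iff_dvd A 3).mpr (by exact_mod_cast h3)
    have hB3 : ((A + 80 * Z : ℤ) : ZMod 3) = 2 := by
      push_cast
      rw [hA3, hZ3]
      decide
    obtain ⟨A1, e1, hA1, he1, h1⟩ := three_step (m := 27) (Z := Z) (B := A + 80 * Z) h3 (by rw [h]; ring)
    have h31 := three_mod (m := 27) hZ3 hB3 (by decide) h1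
    obtain ⟨A2, e2, hA2, he2, h2⟩ := three_step (m := 9) (Z := Z) (B := A + 80 * Z) h31 (by rw [h1]; ring)
    have h32 := three_mod (m := 9) hZ3 hB3 (by decide) h2
    obtain ⟨A3, e3, hA3', he3, h3'⟩ := three_step (m := 3) (Z := Z) (B := A + 80 * Z) h32 (by rw [h2]; ring)
    have h33 := three_mod (m := 3) hZ3 hB3 (by decide) h3'
    obtain ⟨A4, e4, hA4, he4, h4⟩ := three_step (m := 1) (Z := Z) (B := A + 80 * Z) h33 (by rw [h3']; ring)
    have hA81 : A = 81 * A4 := by rw [hA1, hA2, hA3', hA4]; ring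
    have hc4 : IsCoprime A4 Z := by
      rw [hA81] at hc
      exact hc.of_mul_left_right
    have hc5 : IsCoprime (A4 + Z) A4 := by
      have := hc4.symm.add_mul_left_left 1
      simpa [add_comm] using this
    have hc6 : IsCoprime (A4 + Z) (A + 80 * Z) := by
      have := hc5.add_mul_left_right 80
      have he : A4 + (A4 + Z) * 80 = A + 80 * Z := by rw [hA81]; ring
      rwa [he] at this
    have hc7 : IsCoprime (A4 + Z) (A4 * (A + 80 * Z)) := hc5.mul_right hc6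
    obtain ⟨d, hd⟩ := Int.sq_of_isCoprime hc7 (c := e4) (by rw [h4]; ring)
    rcases hd with hd | hd
    · exact ⟨9 * d, by rw [hA81]; linear_combination 81 * hd⟩
    · exfalso
      have : A + 81 * Z = -(9 * d) ^ 2 := by rw [hA81]; linear_combination 81 * hd
      nlinarith [sq_nonneg (9 * d)]
  · have hc3 : IsCoprime A 3 := ((prime_three.irreducible.coprime_iff_not_dvd).mpr h3).symm
    have hc81 : IsCoprime A 81 := by
      have := hc3.pow_right (n := 4)
      norm_num at this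
      exact this
    have hcA : IsCoprime (A + 81 * Z) A := by
      have := (hc81.mul_right hc).symm.add_mul_left_left 1
      simpa [add_comm] using this
    have hcZB : IsCoprime Z (A + 80 * Z) := by
      have := hc.symm.add_mul_left_right 80
      simpa [mul_comm] using this
    have hcB : IsCoprime (A + 81 * Z) (A + 80 * Z) := by
      have := hcZB.add_mul_left_left 1
      have he : Z + (A + 80 * Z) * 1 = A + 81 * Z := by ring
      rwa [he] at this
    obtain ⟨d, hd⟩ := Int.sq_of_isCoprime (hcA.mul_right hcB) (c := e) (by rw [h]; ring)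
    rcases hd with hd | hd
    · exact ⟨d, hd⟩
    · exfalso
      nlinarith [sq_nonneg d]

theorem selmer_int {A Z b e : ℤ} (hZ : Z = b ^ 2) (hb : b ≠ 0) (hc : IsCoprime A Z) (he : e ≠ 0)
    (h : e ^ 2 = A * (A + 81 * Z) * (A + 80 * Z)) :
    ∃ D s t d : ℤ, (D = 1 ∨ D = -1 ∨ D = 5 ∨ D = -5) ∧ A = D * s ^ 2 ∧ A + 80 * Z = D * t ^ 2 ∧
      A + 81 * Z = d ^ 2 := by
  obtain ⟨d, hd⟩ := C_square hZ hb hc he h
  have hd0 : d ≠ 0 := by
    rintro rfl
    apply he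
    have : e ^ 2 = 0 := by rw [h, hd]; ring
    exact pow_eq_zero_iff two_ne_zero |>.mp this
  -- `A * B` is a square
  have hde : d ∣ e := by
    rw [← Int.pow_dvd_pow_iff two_ne_zero, h, hd]
    exact ⟨A * (A + 80 * Z), by ring⟩
  obtain ⟨V, rfl⟩ := hde
  have hV : V ≠ 0 := by rintro rfl; exact he (by simp)
  have hAB : A * (A + 80 * Z) = V ^ 2 := by
    have hd2 : d ^ 2 ≠ 0 := pow_ne_zero 2 hd0
    apply mul_left_cancel₀ hd2
    rw [hd] at h
    linear_combination -h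
  by_cases h2 : (2 : ℤ) ∣ A
  · -- even case
    have hb2 : ¬ (2 : ℤ) ∣ b := by
      intro hb2
      have h2Z : (2 : ℤ) ∣ Z := by rw [hZ]; exact dvd_pow hb2 two_ne_zero
      exact prime_two.not_isUnit (hc.isUnit_of_dvd' h2 h2Z)
    have hbodd : Odd b := by
      rw [← Int.not_even_iff_odd, even_iff_two_dvd]; exact hb2
    have hdodd : Odd d := by
      rw [← Int.not_even_iff_odd, even_iff_two_dvd]
      intro hd2
      have h4 : (2 : ℤ) ∣ d ^ 2 := dvd_pow hd2 two_ne_zero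
      rw [← hd] at h4
      have h5 : (2 : ℤ) ∣ 81 * Z := (Int.dvd_add_right h2).mp h4
      have h6 : (2 : ℤ) ∣ Z := by
        have : (2 : ℤ) ∣ 81 * Z - 2 * (40 * Z) := dvd_sub h5 (Dvd.intro _ rfl)
        have he' : 81 * Z - 2 * (40 * Z) = Z := by ring
        rwa [he'] at this
      exact prime_two.not_isUnit (hc.isUnit_of_dvd' h2 h6)
    obtain ⟨b', rfl⟩ := hbodd
    obtain ⟨d', rfl⟩ := hdodd
    obtain ⟨m, hm⟩ := Int.even_mul_succ_self d'
    obtain ⟨n, hn⟩ := Int.even_mul_succ_self b'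
    have hA8 : A = 8 * (m - 81 * n - 10) := by
      have : A = (2 * d' + 1) ^ 2 - 81 * Z := by linarith
      rw [this, hZ]
      linear_combination 4 * hm - 324 * hn
    set A1 := m - 81 * n - 10 with hA1
    have h8V : (8 : ℤ) ∣ V := by
      rw [← Int.pow_dvd_pow_iff two_ne_zero, ← hAB, hA8]
      exact ⟨A1 * (A1 + 10 * Z), by ring⟩
    obtain ⟨V1, rfl⟩ := h8V
    have h1 : A1 * (A1 + 10 * Z) = V1 ^ 2 := by
      rw [hA8] at hAB
      nlinarith
    have hA1even : (2 : ℤ) ∣ A1 := by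
      by_contra hodd
      have hodd' : Odd A1 := by
        rw [← Int.not_even_iff_odd, even_iff_two_dvd]; exact hodd
      obtain ⟨a', ha'⟩ := hodd'
      have key : ∀ a b v : ZMod 8, (2 * a + 1) * ((2 * a + 1) + 10 * (2 * b + 1) ^ 2) ≠ v ^ 2 := by
        decide
      apply key (a' : ZMod 8) (b' : ZMod 8) (V1 : ZMod 8)
      have := congrArg (fun n : ℤ => (n : ZMod 8)) h1
      rw [ha', hZ] at this
      push_cast at this
      exact this
    obtain ⟨A2, hA2⟩ := hA1even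
    have h2V : (2 : ℤ) ∣ V1 := by
      apply prime_two.dvd_of_dvd_pow (n := 2)
      rw [← h1, hA2]
      exact ⟨A2 * (2 * A2 + 10 * Z), by ring⟩
    obtain ⟨V2, rfl⟩ := h2V
    have hV2 : V2 ≠ 0 := by rintro rfl; exact hV (by simp)
    have h2' : A2 * (A2 + 5 * Z) = V2 ^ 2 := by
      rw [hA2] at h1
      nlinarith
    have hA16 : A = 16 * A2 := by rw [hA8, hA2]; ring
    have hc2 : IsCoprime A2 Z := by
      rw [hA16] at hc
      exact hc.of_mul_left_right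
    obtain ⟨D, s, t, hD, hs, ht⟩ := five_part hc2 h2' hV2
    refine ⟨D, 4 * s, 4 * t, 2 * d' + 1, hD, ?_, ?_, hd⟩
    · rw [hA16, hs]; ring
    · rw [hA16]; linear_combination 16 * ht
  · -- odd case
    have hc2 : IsCoprime A 2 := ((prime_two.irreducible.coprime_iff_not_dvd).mpr h2).symm
    have hc16 : IsCoprime A 16 := by
      have := hc2.pow_right (n := 4)
      norm_num at this
      exact this
    obtain ⟨D, s, t, hD, hs, ht⟩ := five_part (hc16.mul_right hc) (V := V)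
      (by rw [← hAB]; ring) hV
    exact ⟨D, s, t, d, hD, hs, by rw [← ht]; ring, hd⟩

theorem selmer_rat {x y : ℚ} (hy : y ≠ 0) (h : y ^ 2 = x * (x + 80) * (x + 81)) :
    ∃ D u v w : ℚ, (D = 1 ∨ D = -1 ∨ D = 5 ∨ D = -5) ∧ x = D * u ^ 2 ∧ x + 80 = D * v ^ 2 ∧
      x + 81 = w ^ 2 := by
  obtain ⟨X, Z, hZpos, hcop, hx⟩ : ∃ X Z : ℤ, 0 < Z ∧ IsCoprime X Z ∧ x = (X : ℚ) / (Z : ℚ) := by
    refine ⟨x.num, (x.den : ℤ), by exact_mod_cast x.pos, ?_, (Rat.num_div_den x).symm⟩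
    rw [Int.isCoprime_iff_gcd_eq_one]
    exact x.reduced
  have hZq : (Z : ℚ) ≠ 0 := by exact_mod_cast hZpos.ne'
  have hsq : IsSquare ((Z * (X * (X + 81 * Z) * (X + 80 * Z)) : ℤ) : ℚ) := by
    refine ⟨y * Z ^ 2, ?_⟩
    have : (y * Z ^ 2) * (y * Z ^ 2) = y ^ 2 * (Z : ℚ) ^ 4 := by ring
    rw [this, h, hx]
    push_cast
    field_simp
  rw [Rat.isSquare_intCast_iff] at hsq
  obtain ⟨W, hW⟩ := hsq
  have hW0 : W ≠ 0 := by
    rintro rfl
    apply hy
    have h0 : (Z * (X * (X + 81 * Z) * (X + 80 * Z)) : ℤ) = 0 := by rw [hW]; ring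
    have h1 : (X * (X + 81 * Z) * (X + 80 * Z) : ℤ) = 0 := by
      rcases mul_eq_zero.mp h0 with h0 | h0
      · exact absurd h0 hZpos.ne'
      · exact h0
    have h2 : y ^ 2 = 0 := by
      rw [h, hx]
      have h3 : ((X * (X + 81 * Z) * (X + 80 * Z) : ℤ) : ℚ) = 0 := by rw [h1]; simp
      push_cast at h3
      field_simp
      linear_combination h3
    exact pow_eq_zero_iff two_ne_zero |>.mp h2
  have hc1 : IsCoprime Z (X + 81 * Z) := by
    have := hcop.symm.add_mul_left_right 81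
    simpa [mul_comm] using this
  have hc2 : IsCoprime Z (X + 80 * Z) := by
    have := hcop.symm.add_mul_left_right 80
    simpa [mul_comm] using this
  have hc3 : IsCoprime Z (X * (X + 81 * Z) * (X + 80 * Z)) := (hcop.symm.mul_right hc1).mul_right hc2
  obtain ⟨b, hb⟩ := Int.sq_of_isCoprime hc3 (c := W) (by rw [hW]; ring)
  have hb' : Z = b ^ 2 := by
    rcases hb with hb | hb
    · exact hb
    · exfalso; nlinarith [sq_nonneg b]
  have hb0 : b ≠ 0 := by rintro rfl; simp at hb'; exact hZpos.ne' hb'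
  have hbW : b ∣ W := by
    rw [← Int.pow_dvd_pow_iff two_ne_zero, ← hb']
    exact ⟨X * (X + 81 * Z) * (X + 80 * Z), by rw [hW]; ring⟩
  obtain ⟨e, rfl⟩ := hbW
  have he0 : e ≠ 0 := by rintro rfl; exact hW0 (by simp)
  have he : e ^ 2 = X * (X + 81 * Z) * (X + 80 * Z) := by
    apply mul_left_cancel₀ hZpos.ne'
    rw [hW]
    nth_rewrite 1 [hb']
    ring
  obtain ⟨D, s, t, d, hD, hs, ht, hd⟩ := selmer_int hb' hb0 hcop he0 he
  have hbq : (b : ℚ) ≠ 0 := by exact_mod_cast hb0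
  have hZb : (Z : ℚ) = (b : ℚ) ^ 2 := by exact_mod_cast hb'
  refine ⟨D, s / b, t / b, d / b, ?_, ?_, ?_, ?_⟩
  · rcases hD with rfl | rfl | rfl | rfl <;> simp
  · rw [hx, hZb]
    have : (X : ℚ) = D * s ^ 2 := by exact_mod_cast hs
    rw [this]; field_simp
  · rw [hx]
    have : (X : ℚ) + 80 * Z = D * t ^ 2 := by exact_mod_cast ht
    have h2 : (X : ℚ) / Z + 80 = (X + 80 * Z) / Z := by field_simp
    rw [h2, this, hZb]; field_simp
  · rw [hx]
    have : (X : ℚ) + 81 * Z = d ^ 2 := by exact_mod_cast hd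
    have h2 : (X : ℚ) / Z + 81 = (X + 81 * Z) / Z := by field_simp
    rw [h2, this, hZb]; field_simp

theorem abs_le_of_mul {p q N B : ℤ} (hB : 0 < B) (hpq : p * q = N * B) (hN : 0 ≤ N) (hq : B ≤ |q|) :
    |p| ≤ N := by
  by_contra hlt
  rw [not_le] at hlt
  have h1 : |p| * |q| = N * B := by rw [← abs_mul, hpq, abs_of_nonneg (mul_nonneg hN hB.le)]
  have h2 : (N + 1) * B ≤ |p| * |q| := by
    apply mul_le_mul hlt hq hB.le (abs_nonneg p)
  nlinarith

theorem le_abs_of_dvd {n q : ℤ} (hq : q ≠ 0) (h : n ∣ q) : n ≤ |q| :=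
  Int.le_of_dvd (abs_pos.mpr hq) ((dvd_abs n q).mpr h)

theorem den_bound {a c d b n : ℤ} (hb : 0 < b) (hc : c ^ 2 = a ^ 2 + 80 * b ^ 2)
    (hd : d ^ 2 = a ^ 2 + 81 * b ^ 2) (h1 : n ∣ c - a) (h2 : n ∣ d - a) (h3 : n ∣ d - c) :
    n < b ^ 2 := by
  by_contra hn
  rw [not_lt] at hn
  have hB : 0 < b ^ 2 := by positivity
  have e1 : (c + a) * (c - a) = 80 * b ^ 2 := by linear_combination hc
  have e2 : (d + a) * (d - a) = 81 * b ^ 2 := by linear_combination hd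
  have e3 : (d + c) * (d - c) = 1 * b ^ 2 := by linear_combination hd - hc
  have n1 : c - a ≠ 0 := by intro h0; rw [h0] at e1; nlinarith
  have n2 : d - a ≠ 0 := by intro h0; rw [h0] at e2; nlinarith
  have n3 : d - c ≠ 0 := by intro h0; rw [h0] at e3; nlinarith
  have n4 : d + c ≠ 0 := by intro h0; rw [h0] at e3; nlinarith
  have b1 : |c + a| ≤ 80 := abs_le_of_mul hB e1 (by norm_num) (hn.trans (le_abs_of_dvd n1 h1))
  have b2 : |d + a| ≤ 81 := abs_le_of_mul hB e2 (by norm_num) (hn.trans (le_abs_of_dvd n2 h2))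
  have b3 : |d + c| ≤ 1 := abs_le_of_mul hB e3 (by norm_num) (hn.trans (le_abs_of_dvd n3 h3))
  have b4 : |d - c| ≤ b ^ 2 := by
    have h4 : 1 ≤ |d + c| := Int.one_le_abs n4
    have h5 : |d + c| * |d - c| = b ^ 2 := by rw [← abs_mul, e3, one_mul, abs_of_pos hB]
    nlinarith [abs_nonneg (d - c)]
  rw [abs_le] at b1 b2 b3 b4
  have d1 : d ≤ 81 := by linarith [b1.1, b1.2, b2.1, b2.2, b3.1, b3.2]
  have d2 : -81 ≤ d := by linarith [b1.1, b1.2, b2.1, b2.2, b3.1, b3.2]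
  have d3 : d ^ 2 ≤ 81 ^ 2 := by nlinarith
  have hb9 : b ≤ 9 := by nlinarith [sq_nonneg a]
  have d4 : 2 * d ≤ b ^ 2 + 1 := by linarith [b3.2, b4.2]
  have d5 : -(b ^ 2 + 1) ≤ 2 * d := by linarith [b3.1, b4.1]
  have d6 : 4 * d ^ 2 ≤ (b ^ 2 + 1) ^ 2 := by nlinarith
  have d7 : 324 * b ^ 2 ≤ (b ^ 2 + 1) ^ 2 := by nlinarith [sq_nonneg a]
  interval_cases b <;> norm_num at d7

theorem den_eq_of_sq {f g : ℚ} (m : ℤ) (h : g ^ 2 = f ^ 2 + m) : g.den = f.den := by
  have h1 : (g ^ 2).den = (f ^ 2).den := by rw [h, Rat.add_intCast_den]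
  rw [Rat.den_pow, Rat.den_pow] at h1
  exact Nat.pow_left_injective (n := 2) (by norm_num) h1

theorem den_dvd_of_eq_div {x : ℚ} {p q : ℤ} (h : x = (p : ℚ) / q) : (x.den : ℤ) ∣ q := by
  rw [h, ← Rat.divInt_eq_div]
  exact Rat.den_dvd p q

theorem den_lemma {f1 f2 f3 g : ℚ} (h2 : f2 ^ 2 = f1 ^ 2 + 80) (h3 : f3 ^ 2 = f1 ^ 2 + 81)
    (hg : g ^ 2 = (f1 + f2) * (f1 + f3)) : g.den < f1.den := by
  have hd2 : f2.den = f1.den := den_eq_of_sq 80 (by rw [h2]; norm_num)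
  have hd3 : f3.den = f1.den := den_eq_of_sq 81 (by rw [h3]; norm_num)
  obtain ⟨a, c, d, b, hb, hbd, e1, e2, e3⟩ : ∃ a c d b : ℤ, 0 < b ∧ b = (f1.den : ℤ) ∧
      f1 = (a : ℚ) / b ∧ f2 = (c : ℚ) / b ∧ f3 = (d : ℚ) / b := by
    refine ⟨f1.num, f2.num, f3.num, f1.den, by exact_mod_cast f1.pos, rfl,
      (Rat.num_div_den f1).symm, ?_, ?_⟩
    · rw [← hd2]; exact (Rat.num_div_den f2).symm
    · rw [← hd3]; exact (Rat.num_div_den f3).symm
  have hbq : (b : ℚ) ≠ 0 := by exact_mod_cast hb.ne'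
  have hc : c ^ 2 = a ^ 2 + 80 * b ^ 2 := by
    rw [e1, e2] at h2
    field_simp at h2
    have h2' : c ^ 2 = a ^ 2 + b ^ 2 * 80 := by exact_mod_cast h2
    linarith
  have hd : d ^ 2 = a ^ 2 + 81 * b ^ 2 := by
    rw [e1, e3] at h3
    field_simp at h3
    have h3' : d ^ 2 = a ^ 2 + b ^ 2 * 81 := by exact_mod_cast h3
    linarith
  have hB : 0 < b ^ 2 := by positivity
  have n1 : c - a ≠ 0 := by
    intro h0
    have : (c + a) * (c - a) = 80 * b ^ 2 := by linear_combination hc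
    rw [h0] at this; nlinarith
  have n2 : d - a ≠ 0 := by
    intro h0
    have : (d + a) * (d - a) = 81 * b ^ 2 := by linear_combination hd
    rw [h0] at this; nlinarith
  have n3 : d - c ≠ 0 := by
    intro h0
    have : (d + c) * (d - c) = 1 * b ^ 2 := by linear_combination hd - hc
    rw [h0] at this; nlinarith
  have hcq : (c : ℚ) ^ 2 = a ^ 2 + 80 * b ^ 2 := by exact_mod_cast hc
  have hdq : (d : ℚ) ^ 2 = a ^ 2 + 81 * b ^ 2 := by exact_mod_cast hd
  have n1q : (c : ℚ) - a ≠ 0 := by exact_mod_cast n1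
  have n2q : (d : ℚ) - a ≠ 0 := by exact_mod_cast n2
  have n3q : (d : ℚ) - c ≠ 0 := by exact_mod_cast n3
  have x1 : g ^ 2 = ((80 * (a + d) : ℤ) : ℚ) / ((c - a : ℤ) : ℚ) := by
    rw [hg, e1, e2, e3]
    push_cast
    field_simp
    linear_combination (a + d : ℚ) * hcq
  have x2 : g ^ 2 = ((81 * (a + c) : ℤ) : ℚ) / ((d - a : ℤ) : ℚ) := by
    rw [hg, e1, e2, e3]
    push_cast
    field_simp
    linear_combination (a + c : ℚ) * hdq
  have x3 : g ^ 2 + (81 : ℤ) = ((d + a : ℤ) : ℚ) / ((d - c : ℤ) : ℚ) := by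
    rw [hg, e1, e2, e3]
    push_cast
    field_simp
    linear_combination (-(d : ℚ) - a) * hcq + ((c : ℚ) + a) * hdq
  have k1 := den_dvd_of_eq_div x1
  have k2 := den_dvd_of_eq_div x2
  have k3 := den_dvd_of_eq_div x3
  rw [Rat.add_intCast_den] at k3
  have key := den_bound hb hc hd k1 k2 k3
  rw [Rat.den_pow, hbd] at key
  have key' : g.den ^ 2 < f1.den ^ 2 := by exact_mod_cast key
  exact lt_of_pow_lt_pow_left₀ 2 (Nat.zero_le _) key'

theorem reduce_triple {x y : ℚ} (hy : y ≠ 0) (h : y ^ 2 = x * (x + 80) * (x + 81)) :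
    ∃ g1 g2 g3 : ℚ, g1 ≠ 0 ∧ g2 ^ 2 = g1 ^ 2 + 80 ∧ g3 ^ 2 = g1 ^ 2 + 81 ∧
      (g1 ^ 2 = x ∨ g1 ^ 2 = 6480 / x ∨ g1 ^ 2 = -80 * (x + 81) / (x + 80) ∨
        g1 ^ 2 = -81 * (x + 80) / (x + 81)) := by
  have hx0 : x ≠ 0 := by rintro rfl; apply hy; simpa using h
  have hx80 : x + 80 ≠ 0 := by intro h0; apply hy; rw [h0] at h; simpa using h
  have hx81 : x + 81 ≠ 0 := by intro h0; apply hy; rw [h0] at h; simpa using h
  obtain ⟨D, u, v, w, hD, hu, hv, hw⟩ := selmer_rat hy h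
  have hu0 : u ≠ 0 := by rintro rfl; apply hx0; rw [hu]; ring
  have hv0 : v ≠ 0 := by rintro rfl; apply hx80; rw [hv]; ring
  have hw0 : w ≠ 0 := by rintro rfl; apply hx81; rw [hw]; ring
  rcases hD with rfl | rfl | rfl | rfl
  · refine ⟨u, v, w, hu0, by linarith, by linarith, Or.inl (by linarith)⟩
  · refine ⟨9 * v / w, u / w, 9 / w, by positivity, ?_, ?_, Or.inr (Or.inr (Or.inr ?_))⟩
    · field_simp
      linear_combination hu - 81 * hv + 80 * hw
    · field_simp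
      linear_combination (-81 : ℚ) * hv + 81 * hw
    · rw [hv, hw]; field_simp; norm_num
  · refine ⟨36 / u, 4 * w / u, 9 * v / u, by positivity, ?_, ?_, Or.inr (Or.inl ?_)⟩
    · field_simp
      linear_combination 16 * hu - 16 * hw
    · field_simp
      linear_combination (81 / 5 : ℚ) * hu - (81 / 5 : ℚ) * hv
    · rw [hu]; field_simp; norm_num
  · refine ⟨4 * w / v, 4 / v, u / v, by positivity, ?_, ?_, Or.inr (Or.inr (Or.inl ?_))⟩
    · field_simp
      linear_combination 16 * hw - 16 * hv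
    · field_simp
      linear_combination (1 / 5 : ℚ) * hu - (81 / 5 : ℚ) * hv + 16 * hw
    · rw [hv, hw]; field_simp; norm_num

theorem descent_step {f1 f2 f3 : ℚ} (h1 : f1 ≠ 0) (h2 : f2 ^ 2 = f1 ^ 2 + 80)
    (h3 : f3 ^ 2 = f1 ^ 2 + 81) :
    ∃ g1 g2 g3 : ℚ, g1 ≠ 0 ∧ g2 ^ 2 = g1 ^ 2 + 80 ∧ g3 ^ 2 = g1 ^ 2 + 81 ∧ g1.den < f1.den := by
  have n12 : f1 + f2 ≠ 0 := by
    intro h0
    have : f2 = -f1 := by linarith
    rw [this] at h2; nlinarith
  have n13 : f1 + f3 ≠ 0 := by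
    intro h0
    have : f3 = -f1 := by linarith
    rw [this] at h3; nlinarith
  have n23 : f2 + f3 ≠ 0 := by
    intro h0
    have : f3 = -f2 := by linarith
    rw [this] at h3; nlinarith
  have hy : (f1 + f2) * (f1 + f3) * (f2 + f3) ≠ 0 := mul_ne_zero (mul_ne_zero n12 n13) n23
  have e80 : (f1 + f2) * (f1 + f3) + 80 = (f2 + f1) * (f2 + f3) := by linear_combination -h2
  have e81 : (f1 + f2) * (f1 + f3) + 81 = (f3 + f1) * (f3 + f2) := by linear_combination -h3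
  have h : ((f1 + f2) * (f1 + f3) * (f2 + f3)) ^ 2 =
      ((f1 + f2) * (f1 + f3)) * ((f1 + f2) * (f1 + f3) + 80) * ((f1 + f2) * (f1 + f3) + 81) := by
    rw [e80, e81]; ring
  obtain ⟨g1, g2, g3, hg1, hg2, hg3, hg⟩ := reduce_triple hy h
  refine ⟨g1, g2, g3, hg1, hg2, hg3, ?_⟩
  rcases hg with hg | hg | hg | hg
  · exact den_lemma h2 h3 hg
  · have := den_lemma (f1 := -f1) (f2 := f2) (f3 := f3) (g := g1) (by rw [h2]; ring)
      (by rw [h3]; ring) (by
        rw [hg, div_eq_iff (mul_ne_zero n12 n13)]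
        linear_combination (-(f3 ^ 2 - f1 ^ 2)) * h2 - 80 * h3)
    rwa [Rat.neg_den] at this
  · exact den_lemma (f1 := f1) (f2 := -f2) (f3 := f3) (g := g1) (by rw [← h2]; ring) h3 (by
        rw [hg, e80, e81]
        have n21 : f2 + f1 ≠ 0 := by rwa [add_comm]
        have n31 : f3 + f1 ≠ 0 := by rwa [add_comm]
        rw [div_eq_iff (mul_ne_zero n21 n23)]
        linear_combination (f1 + f3) * (f2 + f3) * h2)
  · exact den_lemma (f1 := f1) (f2 := f2) (f3 := -f3) (g := g1) h2 (by rw [← h3]; ring) (by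
        rw [hg, e80, e81]
        have n21 : f2 + f1 ≠ 0 := by rwa [add_comm]
        have n31 : f3 + f1 ≠ 0 := by rwa [add_comm]
        have n32 : f3 + f2 ≠ 0 := by rwa [add_comm]
        rw [div_eq_iff (mul_ne_zero n31 n32)]
        linear_combination (f1 + f2) * (f2 + f3) * h3)

theorem no_triple : ∀ (n : ℕ) (f1 f2 f3 : ℚ), f1.den = n → f1 ≠ 0 → f2 ^ 2 = f1 ^ 2 + 80 →
    f3 ^ 2 = f1 ^ 2 + 81 → False := by
  intro n
  induction n using Nat.strong_induction_on with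
  | _ n ih =>
    intro f1 f2 f3 hn h1 h2 h3
    obtain ⟨g1, g2, g3, hg1, hg2, hg3, hlt⟩ := descent_step h1 h2 h3
    exact ih g1.den (hn ▸ hlt) g1 g2 g3 rfl hg1 hg2 hg3

end DescentAux

theorem F2_points (x y : ℚ) (h : y ^ 2 = x * (x + 80) * (x + 81)) : y = 0 := by
  by_contra hy
  obtain ⟨g1, g2, g3, hg1, hg2, hg3, -⟩ := DescentAux.reduce_triple hy h
  exact DescentAux.no_triple _ g1 g2 g3 rfl hg1 hg2 hg3

end Fermat.Agent.S51Lib
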