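import Mathlib

set_option autoImplicit false

namespace Fermat.Agent.S51Lib

/-- `5 ∣ k * c ^ 3` with `k` prime to `5` forces `5 ∣ c`. -/
theorem five_dvd_of_dvd_mul_cube (k c : ℤ) (hk : IsCoprime (5 : ℤ) k) (h : (5 : ℤ) ∣ k * c ^ 3) :
    (5 : ℤ) ∣ c := by
  have h1 : (5 : ℤ) ∣ c ^ 3 := hk.dvd_of_dvd_mul_left h
  exact (Int.prime_iff_natAbs_prime.2 (by norm_num)).dvd_of_dvd_pow h1

/-- The relation between `r` and `t` on `X₀(15)`, cleared of denominators. -/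
theorem glue_Phi (A B x0 s p : ℚ)
    (h3 : 3 * x0 ^ 4 + 6 * A * x0 ^ 2 + 12 * B * x0 - A ^ 2 = 0)
    (h5a : 4 * B = s ^ 3 - 6 * p * s - 2 * A * s)
    (h5b : (A + s ^ 2 - p) ^ 2 = (2 * s ^ 2 + p) * (s ^ 2 - 4 * p)) :
    (x0 ^ 2 - s * x0 + p) ^ 3 * (4 * A - 7 * s ^ 2 + 40 * p) ^ 2
      + (s ^ 2 - 4 * p) * (13 * (x0 ^ 2 - s * x0 + p) ^ 3
          - 3 * (x0 ^ 2 - s * x0 + p) ^ 2 * (s ^ 2 - 4 * p)) * (4 * A - 7 * s ^ 2 + 40 * p)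
      - (s ^ 2 - 4 * p) * (9 * (x0 ^ 2 - s * x0 + p) + (s ^ 2 - 4 * p))
          * ((x0 ^ 2 - s * x0 + p) - (s ^ 2 - 4 * p)) ^ 3 = 0 := by
  linear_combination
    (-6*A*x0^2*s^2 + 24*A*x0^2*p + 6*A*x0*s^3 - 24*A*x0*s*p - 2*A*s^4 + 10*A*s^2*p - 8*A*p^2
      - 3*x0^4*s^2 + 12*x0^4*p + 12*x0^3*s^3 - 48*x0^3*s*p - 18*x0^2*s^4 + 72*x0^2*s^2*p
      + 15*x0*s^5 - 78*x0*s^3*p + 72*x0*s*p^2 - 5*s^6 + 33*s^4*p - 57*s^2*p^2 + 20*p^3) * h3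
    + (-6*A*x0^2*s^2 + 24*A*x0^2*p + 6*A*x0*s^3 - 24*A*x0*s*p - 2*A*s^4 + 10*A*s^2*p - 8*A*p^2
      + 16*x0^6 - 48*x0^5*s + 81*x0^4*s^2 - 84*x0^4*p - 76*x0^3*s^3 + 144*x0^3*s*p + 42*x0^2*s^4
      - 144*x0^2*s^2*p + 144*x0^2*p^2 - 9*x0*s^5 + 42*x0*s^3*p - 72*x0*s*p^2 - s^6 + 9*s^4*p
      - 21*s^2*p^2 + 20*p^3) * h5b
    + (-3 * x0 * (-6*A*x0^2*s^2 + 24*A*x0^2*p + 6*A*x0*s^3 - 24*A*x0*s*p - 2*A*s^4 + 10*A*s^2*p
      - 8*A*p^2 - 3*x0^4*s^2 + 12*x0^4*p + 12*x0^3*s^3 - 48*x0^3*s*p - 18*x0^2*s^4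
      + 72*x0^2*s^2*p + 15*x0*s^5 - 78*x0*s^3*p + 72*x0*s*p^2 - 5*s^6 + 33*s^4*p - 57*s^2*p^2
      + 20*p^3)) * h5a

/-- `t * al ^ 3 = -16 (4 A ^ 3 + 27 B ^ 2)`, cleared of denominators. -/
theorem glue_disc (A B s p : ℚ)
    (h5a : 4 * B = s ^ 3 - 6 * p * s - 2 * A * s)
    (h5b : (A + s ^ 2 - p) ^ 2 = (2 * s ^ 2 + p) * (s ^ 2 - 4 * p)) :
    (4 * A - 7 * s ^ 2 + 40 * p) * (s ^ 2 - 4 * p) ^ 2 = -16 * (4 * A ^ 3 + 27 * B ^ 2) := by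
  linear_combination (64 * A - 20 * s ^ 2 + 128 * p) * h5b
    + (27 * (4 * B + (s ^ 3 - 6 * p * s - 2 * A * s))) * h5a

/-- `-48 A al = Tn ^ 2 + 10 Tn al + 5 al ^ 2`. -/
theorem glue_c4 (A s p : ℚ)
    (h5b : (A + s ^ 2 - p) ^ 2 = (2 * s ^ 2 + p) * (s ^ 2 - 4 * p)) :
    -48 * A * (s ^ 2 - 4 * p) = (4 * A - 7 * s ^ 2 + 40 * p) ^ 2
      + 10 * (4 * A - 7 * s ^ 2 + 40 * p) * (s ^ 2 - 4 * p) + 5 * (s ^ 2 - 4 * p) ^ 2 := by
  linear_combination (-16) * h5b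


/-- The four exceptional values of `t` contradict semistability at `5`. -/
theorem glue_final (c4 D : ℤ) (hss5 : (5 : ℤ) ∣ D → ¬ (5 : ℤ) ∣ c4) (t al : ℚ)
    (hc4 : 1296 * (c4 : ℚ) = (t ^ 2 + 10 * t + 5) * al)
    (hDD : (6 : ℚ) ^ 12 * (D : ℚ) = t * al ^ 3)
    (ht : t = -10 ∨ t = -40 ∨ t = -25 / 2 ∨ t = -25 / 8) : False := by
  rcases ht with rfl | rfl | rfl | rfl
  · have h1 : (2 : ℚ) * (c4 : ℚ) ^ 3 = -25 * (D : ℚ) := by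
      linear_combination (2 / 1296 ^ 3 : ℚ) * ((1296 * (c4 : ℚ)) ^ 2 + (1296 * (c4 : ℚ)) * (5 * al)
        + (5 * al) ^ 2) * hc4 - (2 * 5 ^ 3 / (1296 ^ 3 * (-10)) : ℚ) * hDD
    have h2 : (2 : ℤ) * c4 ^ 3 = -25 * D := by exact_mod_cast h1
    have h5 : (5 : ℤ) ∣ c4 := five_dvd_of_dvd_mul_cube 2 c4 (by norm_num) ⟨-5 * D, by rw [h2]; ring⟩
    obtain ⟨c, rfl⟩ := h5
    refine hss5 ⟨-2 * c ^ 3, ?_⟩ ⟨c, rfl⟩
    have h3 : (2 : ℤ) * (125 * c ^ 3) = -25 * D := by rw [← h2]; ring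
    linarith
  · have h1 : (8 : ℚ) * (c4 : ℚ) ^ 3 = -349938025 * (D : ℚ) := by
      linear_combination (8 / 1296 ^ 3 : ℚ) * ((1296 * (c4 : ℚ)) ^ 2
        + (1296 * (c4 : ℚ)) * (1205 * al) + (1205 * al) ^ 2) * hc4
        - (8 * 1205 ^ 3 / (1296 ^ 3 * (-40)) : ℚ) * hDD
    have h2 : (8 : ℤ) * c4 ^ 3 = -349938025 * D := by exact_mod_cast h1
    have h5 : (5 : ℤ) ∣ c4 :=
      five_dvd_of_dvd_mul_cube 8 c4 (by norm_num) ⟨-69987605 * D, by rw [h2]; ring⟩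
    obtain ⟨c, rfl⟩ := h5
    refine hss5 ⟨-8 * c ^ 3 - 2799504 * D, ?_⟩ ⟨c, rfl⟩
    have h3 : (8 : ℤ) * (125 * c ^ 3) = -349938025 * D := by rw [← h2]; ring
    linarith
  · have h1 : (32 : ℚ) * (c4 : ℚ) ^ 3 = -121945 * (D : ℚ) := by
      linear_combination (32 / 1296 ^ 3 : ℚ) * ((1296 * (c4 : ℚ)) ^ 2
        + (1296 * (c4 : ℚ)) * (145 / 4 * al) + (145 / 4 * al) ^ 2) * hc4
        - (32 * (145 / 4) ^ 3 / (1296 ^ 3 * (-25 / 2)) : ℚ) * hDD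
    have h2 : (32 : ℤ) * c4 ^ 3 = -121945 * D := by exact_mod_cast h1
    have h5 : (5 : ℤ) ∣ c4 :=
      five_dvd_of_dvd_mul_cube 32 c4 (by norm_num) ⟨-24389 * D, by rw [h2]; ring⟩
    obtain ⟨c, rfl⟩ := h5
    refine hss5 ⟨160 * c ^ 3 + 4878 * D, ?_⟩ ⟨c, rfl⟩
    have h3 : (32 : ℤ) * (125 * c ^ 3) = -121945 * D := by rw [← h2]; ring
    linarith
  · have h1 : (32768 : ℚ) * (c4 : ℚ) ^ 3 = 46969655 * (D : ℚ) := by
      linear_combination (32768 / 1296 ^ 3 : ℚ) * ((1296 * (c4 : ℚ)) ^ 2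
        + (1296 * (c4 : ℚ)) * (-1055 / 64 * al) + (-1055 / 64 * al) ^ 2) * hc4
        - (32768 * (-1055 / 64) ^ 3 / (1296 ^ 3 * (-25 / 8)) : ℚ) * hDD
    have h2 : (32768 : ℤ) * c4 ^ 3 = 46969655 * D := by exact_mod_cast h1
    have h5 : (5 : ℤ) ∣ c4 :=
      five_dvd_of_dvd_mul_cube 32768 c4 (by norm_num) ⟨9393931 * D, by rw [h2]; ring⟩
    obtain ⟨c, rfl⟩ := h5
    refine hss5 ⟨163840 * c ^ 3 - 1878786 * D, ?_⟩ ⟨c, rfl⟩
    have h3 : (32768 : ℤ) * (125 * c ^ 3) = 46969655 * D := by rw [← h2]; ring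
    linarith

/-- The `2`-isogeny from `Y² = X (X + 16) (X + 25)` to `y² = x (x + 80) (x + 81)`. -/
theorem glue_isog (Xc Y : ℚ) (hX : Xc ≠ 0) (hY : Y ^ 2 = Xc * (Xc + 16) * (Xc + 25)) :
    (Y * (Xc ^ 2 - 400) / Xc ^ 2) ^ 2
      = ((Xc - 20) ^ 2 / Xc) * ((Xc - 20) ^ 2 / Xc + 80) * ((Xc - 20) ^ 2 / Xc + 81) := by
  have h1 : (Y * (Xc ^ 2 - 400) / Xc ^ 2) ^ 2 = Y ^ 2 * (Xc ^ 2 - 400) ^ 2 / Xc ^ 4 := by
    rw [div_pow, mul_pow]; ring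
  rw [h1, hY]
  field_simp
  ring

/-- Rational points on `P(r,t) = 0`, given the rank-zero input `F2`. -/
theorem glue_rt (F2 : ∀ x y : ℚ, y ^ 2 = x * (x + 80) * (x + 81) → y = 0) (r t : ℚ)
    (hP : r ^ 3 * t ^ 2 + (13 * r ^ 3 - 3 * r ^ 2) * t - (9 * r + 1) * (r - 1) ^ 3 = 0)
    (hrm1 : r ≠ -1) (ht0 : t ≠ 0) :
    t = -10 ∨ t = -40 ∨ t = -25 / 2 ∨ t = -25 / 8 := by
  have hr0 : r ≠ 0 := by
    intro h; rw [h] at hP; norm_num at hP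
  have hr1 : r + 1 ≠ 0 := fun h => hrm1 (by linarith)
  by_cases h49 : r = 4 / 9
  · right; right; right
    rw [h49] at hP
    have : (8 * t + 25) ^ 2 = 0 := by linear_combination (729 : ℚ) * hP
    have := pow_eq_zero_iff (two_ne_zero) |>.1 this
    linarith
  obtain ⟨y0, hy0d⟩ : ∃ y0 : ℚ, y0 = r * (2 * r * t + 13 * r - 3) / (r + 1) := ⟨_, rfl⟩
  have hy0 : y0 ^ 2 = r * (9 * r - 4) * (4 * r + 1) := by
    have h1 : y0 * (r + 1) = r * (2 * r * t + 13 * r - 3) := by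
      rw [hy0d]; field_simp
    have h2 : (y0 * (r + 1)) ^ 2 = r * (9 * r - 4) * (4 * r + 1) * (r + 1) ^ 2 := by
      rw [h1]; linear_combination (4 * r) * hP
    have h3 : (r + 1) ^ 2 ≠ 0 := pow_ne_zero 2 hr1
    apply mul_right_cancel₀ h3
    linear_combination h2
  have hXc : 36 * r - 16 ≠ 0 := fun h => h49 (by linarith)
  have hY : (36 * y0) ^ 2 = (36 * r - 16) * (36 * r - 16 + 16) * (36 * r - 16 + 25) := by
    linear_combination (1296 : ℚ) * hy0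
  have key := F2 _ _ (glue_isog (36 * r - 16) (36 * y0) hXc hY)
  have key2 : y0 * ((36 * r - 16) ^ 2 - 400) = 0 := by
    have h4 : (36 * r - 16) ^ 2 ≠ 0 := pow_ne_zero 2 hXc
    rw [div_eq_zero_iff] at key
    rcases key with key | key
    · linear_combination (1 / 36 : ℚ) * key
    · exact absurd key h4
  rcases mul_eq_zero.1 key2 with h | h
  · -- y0 = 0
    rw [h] at hy0
    have h5 : r * (9 * r - 4) * (4 * r + 1) = 0 := by linarith [hy0]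
    have h6 : 4 * r + 1 = 0 := by
      rcases mul_eq_zero.1 h5 with h7 | h7
      · rcases mul_eq_zero.1 h7 with h8 | h8
        · exact absurd h8 hr0
        · exact absurd (by linarith : r = 4 / 9) h49
      · exact h7
    have hr : r = -1 / 4 := by linarith
    right; right; left
    rw [hr] at hP
    have : (2 * t + 25) ^ 2 = 0 := by linear_combination (-256 : ℚ) * hP
    have := pow_eq_zero_iff (two_ne_zero) |>.1 this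
    linarith
  · have h5 : (r - 1) * (9 * r + 1) = 0 := by linear_combination (1 / 144 : ℚ) * h
    rcases mul_eq_zero.1 h5 with h6 | h6
    · have hr : r = 1 := by linarith
      left
      rw [hr] at hP
      have : t * (t + 10) = 0 := by linear_combination hP
      rcases mul_eq_zero.1 this with h7 | h7
      · exact absurd h7 ht0
      · linarith
    · have hr : r = -1 / 9 := by linarith
      right; left
      rw [hr] at hP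
      have : t * (t + 40) = 0 := by linear_combination (-729 : ℚ) * hP
      rcases mul_eq_zero.1 this with h7 | h7
      · exact absurd h7 ht0
      · linarith

theorem no_rational_data_of (F2 : ∀ x y : ℚ, y ^ 2 = x * (x + 80) * (x + 81) → y = 0)
    (c4 c6 D : ℤ) (hrel : c4 ^ 3 - c6 ^ 2 = 1728 * D) (hD : D ≠ 0)
    (hss : ∀ q : ℕ, q.Prime → (q : ℤ) ∣ D → ¬ (q : ℤ) ∣ c4)
    (A B x0 s p : ℚ) (hA : A = -27 * c4) (hB : B = -54 * c6)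
    (h3 : 3 * x0 ^ 4 + 6 * A * x0 ^ 2 + 12 * B * x0 - A ^ 2 = 0)
    (h5a : 4 * B = s ^ 3 - 6 * p * s - 2 * A * s)
    (h5b : (A + s ^ 2 - p) ^ 2 = (2 * s ^ 2 + p) * (s ^ 2 - 4 * p))
    (hne : s ^ 2 ≠ 4 * p) : False := by
  have hPhi := glue_Phi A B x0 s p h3 h5a h5b
  have hdisc := glue_disc A B s p h5a h5b
  have hc4' := glue_c4 A s p h5b
  obtain ⟨al, hal⟩ : ∃ al : ℚ, al = s ^ 2 - 4 * p := ⟨_, rfl⟩
  obtain ⟨Tn, hTn⟩ : ∃ Tn : ℚ, Tn = 4 * A - 7 * s ^ 2 + 40 * p := ⟨_, rfl⟩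
  obtain ⟨R, hR⟩ : ∃ R : ℚ, R = x0 ^ 2 - s * x0 + p := ⟨_, rfl⟩
  rw [← hal, ← hTn, ← hR] at hPhi
  rw [← hal, ← hTn] at hdisc hc4'
  have hal0 : al ≠ 0 := by rw [hal]; exact sub_ne_zero.2 hne
  have halpos : 0 < al := by
    by_contra hneg
    have hlt : al < 0 := lt_of_le_of_ne (not_lt.1 hneg) hal0
    have h1 : 0 ≤ (2 * s ^ 2 + p) * al := by
      rw [hal, ← h5b]; positivity
    have h2 : 2 * s ^ 2 + p ≤ 0 := by
      by_contra h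
      have := mul_neg_of_pos_of_neg (not_le.1 h) hlt
      linarith
    nlinarith [sq_nonneg s]
  have hrelQ : (c4 : ℚ) ^ 3 - (c6 : ℚ) ^ 2 = 1728 * (D : ℚ) := by exact_mod_cast hrel
  have hDQ : (D : ℚ) ≠ 0 := by exact_mod_cast hD
  have hDD : (6 : ℚ) ^ 12 * (D : ℚ) = Tn / al * al ^ 3 := by
    have : Tn / al * al ^ 3 = Tn * al ^ 2 := by field_simp
    rw [this, hdisc, hA, hB]
    linear_combination (-1259712 : ℚ) * hrelQ
  have hc4 : 1296 * (c4 : ℚ) = ((Tn / al) ^ 2 + 10 * (Tn / al) + 5) * al := by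
    have : ((Tn / al) ^ 2 + 10 * (Tn / al) + 5) * al = (Tn ^ 2 + 10 * Tn * al + 5 * al ^ 2) / al := by
      field_simp
    rw [this, ← hc4', hA]
    field_simp
    ring
  have ht0 : Tn / al ≠ 0 := by
    intro h
    rw [h] at hDD
    apply hDQ
    have : (6 : ℚ) ^ 12 * (D : ℚ) = 0 := by rw [hDD]; ring
    exact (mul_eq_zero.1 this).resolve_left (by norm_num)
  have hP : (R / al) ^ 3 * (Tn / al) ^ 2 + (13 * (R / al) ^ 3 - 3 * (R / al) ^ 2) * (Tn / al)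
      - (9 * (R / al) + 1) * (R / al - 1) ^ 3 = 0 := by
    have : (R / al) ^ 3 * (Tn / al) ^ 2 + (13 * (R / al) ^ 3 - 3 * (R / al) ^ 2) * (Tn / al)
      - (9 * (R / al) + 1) * (R / al - 1) ^ 3
      = (R ^ 3 * Tn ^ 2 + al * (13 * R ^ 3 - 3 * R ^ 2 * al) * Tn
          - al * (9 * R + al) * (R - al) ^ 3) / al ^ 5 := by
      field_simp
    rw [this, hPhi, zero_div]
  have hrm1 : R / al ≠ -1 := by
    intro h
    have h1 : R = -al := by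
      field_simp at h
      linarith
    rw [hR] at h1
    nlinarith [sq_nonneg (x0 - s / 2)]
  exact glue_final c4 D (hss 5 Nat.prime_five) (Tn / al) al hc4 hDD
    (glue_rt F2 (R / al) (Tn / al) hP hrm1 ht0)

end Fermat.Agent.S51Lib
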