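import Fermat.Agent.S51.Galois

set_option autoImplicit false

namespace Fermat.Agent.S51Lib

open WeierstrassCurve WeierstrassCurve.Affine WeierstrassCurve.Affine.Point Polynomial

local notation "Qb" => AlgebraicClosure ℚ

variable (E : Affine ℚ)

/-- the 3-division polynomial on the short model -/
noncomputable def nontriv3Poly {F : Type*} [Field F] (A B : F) : F[X] :=
  C 3 * X ^ 4 + C (6 * A) * X ^ 2 + C (12 * B) * X - C (A ^ 2)

lemma nontriv3Poly_natDegree {F : Type*} [Field F] (h3 : (3 : F) ≠ 0) (A B : F) :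
    (nontriv3Poly A B).natDegree = 4 := by
  unfold nontriv3Poly
  compute_degree!

lemma nontriv3Poly_eval {F : Type*} [Field F] (A B x : F) :
    (nontriv3Poly A B).eval x = 3 * x ^ 4 + 6 * A * x ^ 2 + 12 * B * x - A ^ 2 := by
  simp [nontriv3Poly]

/-- key step: a root of the 3-division polynomial gives a 3-torsion point. -/
lemma nontriv3_key {F : Type*} [Field F] [DecidableEq F] {W : WeierstrassCurve F}
    (h6 : (6 : F) ≠ 0) (hΔ : W.Δ ≠ 0) {P : W.toAffine.Point} (hP : P ≠ 0)
    (hX : 3 * (sx P) ^ 4 + 6 * sA W * (sx P) ^ 2 + 12 * sB W * (sx P) - (sA W) ^ 2 = 0) :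
    (3 : ℕ) • P = 0 := by
  have hrel : sx P * (4 * cub W (sx P)) = dupN W (sx P) := by
    simp only [cub, dupN]; linear_combination hX
  have hcub : cub W (sx P) ≠ 0 := by
    intro hc
    have hd : dupN W (sx P) = 0 := by rw [← hrel, hc]; ring
    have h1 := resultant_identity (W := W) (sx P)
    rw [hc, hd] at h1
    have h2 := disc_eq (W := W)
    have : (6 : F) ^ 12 * W.Δ = 0 := by rw [← h2]; linear_combination (16 : F) * h1
    rcases mul_eq_zero.1 this with h | h
    · exact h6 (pow_eq_zero_iff (by norm_num) |>.1 h)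
    · exact hΔ h
  have h2P : P + P ≠ 0 := fun h => hcub ((add_self_eq_zero_iff h6 hP).1 h)
  have hs := sx_add_self hP h2P
  have h4 : (4 : F) ≠ 0 := by
    intro h
    apply h6
    have h2 : (2 : F) = 0 := by
      have : (2 : F) * 2 = 0 := by linear_combination h
      exact mul_self_eq_zero.1 this
    linear_combination (3 : F) * h2
  have hsx : sx (P + P) = sx P := by
    have : (4 * cub W (sx P)) ≠ 0 := mul_ne_zero h4 hcub
    exact mul_right_cancel₀ this (hs.trans hrel.symm)
  rcases (sx_eq_sx_iff h6 h2P hP).1 hsx with h | h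
  · exact absurd (by simpa using h) hP
  · have : (3 : ℕ) • P = (P + P) + P := by
      rw [show (3 : ℕ) = 2 + 1 from rfl, add_smul, two_smul, one_smul]
    rw [this, h, neg_add_cancel]

theorem nontrivial_three (hΔ : E.Δ ≠ 0) :
    Nontrivial (Submodule.torsionBy ℤ (E⁄Qb).Point (3 : ℕ)) := by
  have h3 : (3 : Qb) ≠ 0 := by norm_num
  have hdeg : (nontriv3Poly (sA (E⁄Qb)) (sB (E⁄Qb))).degree ≠ 0 := by
    rw [degree_eq_natDegree (by
      intro h
      have := nontriv3Poly_natDegree h3 (sA (E⁄Qb)) (sB (E⁄Qb))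
      rw [h] at this; simp at this), nontriv3Poly_natDegree h3]
    norm_num
  obtain ⟨x, hx⟩ := IsAlgClosed.exists_root _ hdeg
  rw [IsRoot, nontriv3Poly_eval] at hx
  obtain ⟨P, hP, hPx⟩ := exists_point (W := (E⁄Qb)) six_ne_zero_Qb (Δ_baseChange_ne_zero E hΔ) x
  have h := nontriv3_key (W := (E⁄Qb)) six_ne_zero_Qb (Δ_baseChange_ne_zero E hΔ) hP
    (by rw [hPx]; exact hx)
  refine ⟨⟨⟨P, ?_⟩, 0, ?_⟩⟩
  · rw [Submodule.mem_torsionBy_iff]
    rw [Nat.cast_smul_eq_nsmul]
    exact h
  · intro h0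
    exact hP (congrArg Subtype.val h0)

end Fermat.Agent.S51Lib
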