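import Fermat.Agent.S51.Galois

set_option autoImplicit false

/-!
S51 piece (D5): the 5-torsion of an elliptic curve over `ℚ` is nontrivial over `AlgebraicClosure ℚ`.
-/

namespace Fermat.Agent.S51Lib

open WeierstrassCurve WeierstrassCurve.Affine WeierstrassCurve.Affine.Point Polynomial

local notation "Qb" => AlgebraicClosure ℚ

section generic

variable {F : Type*} [Field F] {W : WeierstrassCurve F}

lemma Nontriv5.disc_ne (h6 : (6 : F) ≠ 0) (hΔ : W.Δ ≠ 0) :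
    4 * sA W ^ 3 + 27 * sB W ^ 2 ≠ 0 := by
  intro h
  have h1 := disc_eq (W := W)
  rw [h, mul_zero] at h1
  exact (mul_ne_zero (pow_ne_zero 12 h6) hΔ) h1.symm

/-- `cub` and `dupN` have no common zero. -/
lemma Nontriv5.cub_ne_zero_of_dupN (h6 : (6 : F) ≠ 0) (hΔ : W.Δ ≠ 0) {X Y : F}
    (h : Y * (4 * cub W X) = dupN W X) : cub W X ≠ 0 := by
  intro h0
  rw [h0, mul_zero, mul_zero] at h
  have h1 := resultant_identity (W := W) X
  rw [← h, h0, mul_zero, mul_zero, sub_zero] at h1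
  exact Nontriv5.disc_ne h6 hΔ h1.symm

/-- a nonzero root of the sextic resolvent. -/
lemma Nontriv5.exists_s [IsAlgClosed F] (h80 : (80 : F) ≠ 0) (A B : F)
    (hD : 4 * A ^ 3 + 27 * B ^ 2 ≠ 0) :
    ∃ s : F, s ≠ 0 ∧ s ^ 6 + 20 * A * s ^ 4 + 160 * B * s ^ 3 - 80 * A ^ 2 * s ^ 2
      - 128 * A * B * s - 80 * B ^ 2 = 0 := by
  by_cases hB : B = 0
  · subst hB
    have hA : A ≠ 0 := by
      rintro rfl; apply hD; ring
    have hdeg : ((X : F[X]) ^ 4 + C (20 * A) * X ^ 2 - C (80 * A ^ 2)).degree ≠ 0 := by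
      have : ((X : F[X]) ^ 4 + C (20 * A) * X ^ 2 - C (80 * A ^ 2)).degree = 4 := by
        compute_degree!
      rw [this]; norm_num
    obtain ⟨s, hs⟩ := IsAlgClosed.exists_root _ hdeg
    have hs' : s ^ 4 + 20 * A * s ^ 2 - 80 * A ^ 2 = 0 := by simpa [IsRoot.def] using hs
    refine ⟨s, ?_, by linear_combination s ^ 2 * hs'⟩
    rintro rfl
    have : 80 * A ^ 2 = 0 := by linear_combination -hs'
    exact (mul_ne_zero h80 (pow_ne_zero 2 hA)) this
  · have hdeg : ((X : F[X]) ^ 6 + C (20 * A) * X ^ 4 + C (160 * B) * X ^ 3 - C (80 * A ^ 2) * X ^ 2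
        - C (128 * A * B) * X - C (80 * B ^ 2)).degree ≠ 0 := by
      have : ((X : F[X]) ^ 6 + C (20 * A) * X ^ 4 + C (160 * B) * X ^ 3 - C (80 * A ^ 2) * X ^ 2
        - C (128 * A * B) * X - C (80 * B ^ 2)).degree = 6 := by
        compute_degree!
      rw [this]; norm_num
    obtain ⟨s, hs⟩ := IsAlgClosed.exists_root _ hdeg
    have hs' : s ^ 6 + 20 * A * s ^ 4 + 160 * B * s ^ 3 - 80 * A ^ 2 * s ^ 2
      - 128 * A * B * s - 80 * B ^ 2 = 0 := by simpa [IsRoot.def] using hs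
    refine ⟨s, ?_, hs'⟩
    rintro rfl
    have : 80 * B ^ 2 = 0 := by linear_combination -hs'
    exact (mul_ne_zero h80 (pow_ne_zero 2 hB)) this

/-- the pair of `x`-coordinates `x(P), x(2P)` of a point of order 5. -/
lemma Nontriv5.exists_pair [IsAlgClosed F] (h6 : (6 : F) ≠ 0) (h5 : (5 : F) ≠ 0) (A B : F)
    (hD : 4 * A ^ 3 + 27 * B ^ 2 ≠ 0) :
    ∃ X1 X2 : F, X1 ≠ X2 ∧
      4 * B = (X1 + X2) ^ 3 - 6 * (X1 * X2) * (X1 + X2) - 2 * A * (X1 + X2) ∧
      A ^ 2 + 2 * A * ((X1 + X2) ^ 2 - X1 * X2) - (X1 + X2) ^ 4 + 5 * (X1 * X2) * (X1 + X2) ^ 2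
        + 5 * (X1 * X2) ^ 2 = 0 := by
  have h2 : (2 : F) ≠ 0 := fun h => h6 (by linear_combination 3 * h)
  have h80 : (80 : F) ≠ 0 := by
    have : (80 : F) = 2 ^ 4 * 5 := by norm_num
    rw [this]; exact mul_ne_zero (pow_ne_zero 4 h2) h5
  obtain ⟨s, hs0, hs⟩ := Nontriv5.exists_s h80 A B hD
  obtain ⟨p, hp⟩ : ∃ p : F, 6 * s * p = s ^ 3 - 2 * A * s - 4 * B :=
    ⟨(s ^ 3 - 2 * A * s - 4 * B) / (6 * s), by field_simp⟩
  have hdeg : ((X : F[X]) ^ 2 - C s * X + C p).degree ≠ 0 := by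
    have : ((X : F[X]) ^ 2 - C s * X + C p).degree = 2 := by
      compute_degree!
    rw [this]; norm_num
  obtain ⟨X1, hX1⟩ := IsAlgClosed.exists_root _ hdeg
  have hX1' : X1 ^ 2 - s * X1 + p = 0 := by simpa [IsRoot.def] using hX1
  obtain ⟨X2, hX2⟩ : ∃ X2 : F, X2 = s - X1 := ⟨_, rfl⟩
  have hsum : X1 + X2 = s := by rw [hX2]; ring
  have hprod : X1 * X2 = p := by rw [hX2]; linear_combination -hX1'
  have ha : 4 * B = s ^ 3 - 6 * p * s - 2 * A * s := by linear_combination hp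
  have hb : A ^ 2 + 2 * A * (s ^ 2 - p) - s ^ 4 + 5 * p * s ^ 2 + 5 * p ^ 2 = 0 := by
    have h36 : 36 * s ^ 2 ≠ 0 := by
      have : (36 : F) = 6 * 6 := by norm_num
      rw [this]; exact mul_ne_zero (mul_ne_zero h6 h6) (pow_ne_zero 2 hs0)
    apply (mul_eq_zero.1 (?_ : 36 * s ^ 2 * _ = 0)).resolve_left h36
    linear_combination -hs + (5 * (6 * s * p) + 5 * (s ^ 3 - 2 * A * s - 4 * B)
      + 30 * s ^ 3 - 12 * A * s) * hp
  refine ⟨X1, X2, ?_, by rw [hsum, hprod]; exact ha, by rw [hsum, hprod]; exact hb⟩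
  intro h12
  have hs2 : s = 2 * X1 := by rw [← hsum, ← h12]; ring
  have hp2 : p = X1 ^ 2 := by rw [← hprod, ← h12]; ring
  rw [hs2, hp2] at ha hb
  have hA : A = -3 * X1 ^ 2 := by
    have : (A + 3 * X1 ^ 2) ^ 2 = 0 := by linear_combination hb
    have := pow_eq_zero_iff (two_ne_zero) |>.1 this
    linear_combination this
  have hB : B = 2 * X1 ^ 3 := by
    have h4 : (4 : F) ≠ 0 := by
      have : (4 : F) = 2 * 2 := by norm_num
      rw [this]; exact mul_ne_zero h2 h2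
    apply mul_left_cancel₀ h4
    rw [ha, hA]; ring
  apply hD
  rw [hA, hB]; ring

variable [DecidableEq F]

lemma Nontriv5.exists_five [IsAlgClosed F] (h6 : (6 : F) ≠ 0) (h5 : (5 : F) ≠ 0) (hΔ : W.Δ ≠ 0) :
    ∃ P : W.toAffine.Point, P ≠ 0 ∧ P + P + (P + P) + P = 0 := by
  obtain ⟨X1, X2, h12, ha, hb⟩ :=
    Nontriv5.exists_pair h6 h5 (sA W) (sB W) (Nontriv5.disc_ne h6 hΔ)
  have hE1 : X2 * (4 * cub W X1) = dupN W X1 := by
    simp only [cub, dupN]; linear_combination (2 * X1 + X2) * ha - hb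
  have hE2 : X1 * (4 * cub W X2) = dupN W X2 := by
    simp only [cub, dupN]; linear_combination (X1 + 2 * X2) * ha - hb
  have hc1 : cub W X1 ≠ 0 := Nontriv5.cub_ne_zero_of_dupN h6 hΔ hE1
  have hc2 : cub W X2 ≠ 0 := Nontriv5.cub_ne_zero_of_dupN h6 hΔ hE2
  have h4 : (4 : F) ≠ 0 := by
    have h2' : (2 : F) ≠ 0 := fun h => h6 (by linear_combination 3 * h)
    have : (4 : F) = 2 * 2 := by norm_num
    rw [this]; exact mul_ne_zero h2' h2'
  obtain ⟨P, hP, hsx⟩ := exists_point h6 hΔ X1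
  have hQ : P + P ≠ 0 := by
    intro h
    rw [add_self_eq_zero_iff h6 hP, hsx] at h
    exact hc1 h
  have hsQ : sx (P + P) = X2 := by
    have hs := sx_add_self hP hQ
    rw [hsx, ← hE1] at hs
    exact mul_right_cancel₀ (mul_ne_zero h4 hc1) hs
  have hR : P + P + (P + P) ≠ 0 := by
    intro h
    rw [add_self_eq_zero_iff h6 hQ, hsQ] at h
    exact hc2 h
  have hsR : sx (P + P + (P + P)) = sx P := by
    have hs := sx_add_self hQ hR
    rw [hsQ, ← hE2] at hs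
    rw [hsx]
    exact mul_right_cancel₀ (mul_ne_zero h4 hc2) hs
  refine ⟨P, hP, ?_⟩
  rcases (sx_eq_sx_iff h6 hR hP).1 hsR with h | h
  · exfalso
    apply h12
    have h3 : P + P = -P := by
      have h' : P + P + P + P = 0 + P := by
        rw [zero_add]; exact (by abel : P + P + P + P = P + P + (P + P)).trans h
      have h'' : P + P + P = 0 := add_right_cancel h'
      exact eq_neg_of_add_eq_zero_left h''
    rw [← hsx, ← hsQ, h3, sx_neg]
  · rw [h]; simp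

end generic

variable (E : Affine ℚ)

theorem nontrivial_five (hΔ : E.Δ ≠ 0) :
    Nontrivial (Submodule.torsionBy ℤ (E⁄Qb).Point (5 : ℕ)) := by
  classical
  obtain ⟨P, hP, h5⟩ := Nontriv5.exists_five (W := E⁄Qb) six_ne_zero_Qb (by norm_num)
    (Δ_baseChange_ne_zero E hΔ)
  have hmem : P ∈ Submodule.torsionBy ℤ (E⁄Qb).Point (5 : ℕ) := by
    rw [Submodule.mem_torsionBy_iff]
    have : ((5 : ℕ) : ℤ) • P = P + P + (P + P) + P := by
      push_cast
      rw [show (5 : ℤ) = 1 + 1 + (1 + 1) + 1 by norm_num, add_smul, add_smul, add_smul, one_smul]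
    rw [this]; exact h5
  refine ⟨⟨⟨P, hmem⟩, 0, ?_⟩⟩
  intro h
  exact hP (congrArg Subtype.val h)

end Fermat.Agent.S51Lib
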