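import Mathlib

set_option autoImplicit false

namespace Fermat.Agent.S51Lib

open Polynomial

theorem exists_line {K : Type*} [Field K] (p : ℕ) [Fact p.Prime] {V : Type*} [AddCommGroup V]
    [Module (ZMod p) V] (X : V → K) (f : K[X]) (hf : f ≠ 0) (hdeg : 2 * f.natDegree + 1 < p ^ 3)
    (hroot : ∀ v : V, v ≠ 0 → f.IsRoot (X v))
    (hinj : ∀ v w : V, v ≠ 0 → w ≠ 0 → X v = X w → v = w ∨ v = -w)
    (N : Submodule (ZMod p) V) (h0 : N ≠ ⊥) (h1 : N ≠ ⊤) :
    ∃ P ∈ N, P ≠ 0 ∧ ∀ v ∈ N, ∃ c : ZMod p, v = c • P := by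
  classical
  obtain ⟨P, hPN, hP0⟩ := (Submodule.ne_bot_iff N).1 h0
  obtain ⟨Q, hQ⟩ : ∃ Q : V, Q ∉ N := by
    by_contra h
    push Not at h
    exact h1 (eq_top_iff.2 fun x _ => h x)
  refine ⟨P, hPN, hP0, ?_⟩
  by_contra hcon
  push Not at hcon
  obtain ⟨P', hP'N, hP'⟩ := hcon
  -- the map φ
  let φ : (ZMod p × ZMod p × ZMod p) → V := fun t => t.1 • P + t.2.1 • P' + t.2.2 • Q
  have hφ0 : ∀ t, φ t = 0 → t = 0 := by
    rintro ⟨a, b, c⟩ h
    simp only [φ] at h
    have hc : c = 0 := by
      by_contra hc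
      apply hQ
      have : Q = c⁻¹ • (-(a • P + b • P')) := by
        rw [eq_inv_smul_iff₀ hc]
        exact eq_neg_of_add_eq_zero_right h
      rw [this]
      exact N.smul_mem _ (N.neg_mem (N.add_mem (N.smul_mem _ hPN) (N.smul_mem _ hP'N)))
    subst hc
    have hb : b = 0 := by
      by_contra hb
      apply hP' (-(b⁻¹ * a))
      have : b • P' = -(a • P) := by
        rw [zero_smul, add_zero] at h
        exact eq_neg_of_add_eq_zero_right h
      rw [neg_smul, mul_smul, ← smul_neg, ← this, inv_smul_smul₀ hb]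
    subst hb
    have ha : a = 0 := by
      by_contra ha
      apply hP0
      rw [zero_smul, zero_smul, add_zero, add_zero] at h
      exact (smul_eq_zero.1 h).resolve_left ha
    subst ha
    rfl
  have hφadd : ∀ s t, φ (s - t) = φ s - φ t := by
    rintro ⟨a, b, c⟩ ⟨a', b', c'⟩
    simp only [φ, Prod.mk_sub_mk, sub_smul]
    abel
  have hφneg : ∀ t, φ (-t) = - φ t := by
    rintro ⟨a, b, c⟩
    simp only [φ, Prod.neg_mk, neg_smul]
    abel
  have hφinj : Function.Injective φ := by
    intro s t h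
    have := hφ0 (s - t) (by rw [hφadd, h, sub_self])
    exact sub_eq_zero.1 this
  let T : Finset (ZMod p × ZMod p × ZMod p) := Finset.univ.erase 0
  have hTcard : T.card = p ^ 3 - 1 := by
    rw [Finset.card_erase_of_mem (Finset.mem_univ _), Finset.card_univ]
    simp [Fintype.card_prod, ZMod.card]
    ring_nf
  have hmaps : ∀ t ∈ T, X (φ t) ∈ f.roots.toFinset := by
    intro t ht
    rw [Multiset.mem_toFinset, mem_roots hf]
    apply hroot
    intro h
    exact (Finset.mem_erase.1 ht).1 (hφ0 t h)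
  have hfib : ∀ y ∈ f.roots.toFinset, (T.filter fun t => X (φ t) = y).card ≤ 2 := by
    intro y _
    by_cases hne : (T.filter fun t => X (φ t) = y).Nonempty
    · obtain ⟨t, ht⟩ := hne
      rw [Finset.mem_filter] at ht
      have hsub : (T.filter fun t => X (φ t) = y) ⊆ {t, -t} := by
        intro s hs
        rw [Finset.mem_filter] at hs
        have hs0 : φ s ≠ 0 := fun h => (Finset.mem_erase.1 hs.1).1 (hφ0 s h)
        have ht0 : φ t ≠ 0 := fun h => (Finset.mem_erase.1 ht.1).1 (hφ0 t h)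
        rcases hinj (φ s) (φ t) hs0 ht0 (hs.2.trans ht.2.symm) with h | h
        · simp [hφinj h]
        · rw [← hφneg] at h
          simp [hφinj h]
      exact (Finset.card_le_card hsub).trans Finset.card_le_two
    · rw [Finset.not_nonempty_iff_eq_empty] at hne
      rw [hne]; simp
  have hle := Finset.card_le_mul_card_image_of_maps_to hmaps 2 hfib
  have hroots : f.roots.toFinset.card ≤ f.natDegree :=
    (Multiset.toFinset_card_le _).trans (card_roots' f)
  rw [hTcard] at hle
  have : p ^ 3 - 1 ≤ 2 * f.natDegree := hle.trans (Nat.mul_le_mul_left 2 hroots)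
  omega

end Fermat.Agent.S51Lib
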