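import Fermat.Agent.S51.Galois
import Fermat.Agent.S51.Line
import Fermat.Agent.S51.Nontriv3

set_option autoImplicit false

namespace Fermat.Agent.S51Lib

open WeierstrassCurve WeierstrassCurve.Affine WeierstrassCurve.Affine.Point Polynomial

local notation "Qb" => AlgebraicClosure ℚ

variable (E : Affine ℚ)

/-- a nonzero 3-torsion point has `sx` a root of the 3-division polynomial. -/
lemma rat3_root {F : Type*} [Field F] [DecidableEq F] {W : WeierstrassCurve F}
    {P : W.toAffine.Point} (hP : P ≠ 0) (h3 : (3 : ℕ) • P = 0) :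
    3 * (sx P) ^ 4 + 6 * sA W * (sx P) ^ 2 + 12 * sB W * (sx P) - (sA W) ^ 2 = 0 := by
  have h2 : P + P = -P := by
    have : (3 : ℕ) • P = (P + P) + P := by
      rw [show (3 : ℕ) = 2 + 1 from rfl, add_smul, two_smul, one_smul]
    rw [this] at h3
    exact eq_neg_of_add_eq_zero_left h3
  have h2P : P + P ≠ 0 := by
    rw [h2]; simpa using hP
  have hs := sx_add_self hP h2P
  rw [h2, sx_neg] at hs
  simp only [cub, dupN] at hs
  linear_combination hs

theorem exists_rat_three (hΔ : E.Δ ≠ 0)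
    (N : Submodule (ZMod 3) (Submodule.torsionBy ℤ (E⁄Qb).Point (3 : ℕ)))
    (hN : IsGaloisStable ℚ N) (h0 : N ≠ ⊥) (h1 : N ≠ ⊤) :
    ∃ x0 : ℚ, 3 * x0 ^ 4 + 6 * (-27 * E.c₄) * x0 ^ 2 + 12 * (-54 * E.c₆) * x0
      - (-27 * E.c₄) ^ 2 = 0 := by
  have : Fact (Nat.Prime 3) := ⟨Nat.prime_three⟩
  have h3 : (3 : Qb) ≠ 0 := by norm_num
  have htor : ∀ v : Submodule.torsionBy ℤ (E⁄Qb).Point (3 : ℕ), (3 : ℕ) • (v : (E⁄Qb).Point) = 0 := by
    intro v
    have := v.2
    rw [Submodule.mem_torsionBy_iff, Nat.cast_smul_eq_nsmul] at this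
    exact this
  have hne : ∀ v : Submodule.torsionBy ℤ (E⁄Qb).Point (3 : ℕ), v ≠ 0 → (v : (E⁄Qb).Point) ≠ 0 :=
    fun v hv h => hv (Subtype.ext h)
  have hf0 : nontriv3Poly (sA (E⁄Qb)) (sB (E⁄Qb)) ≠ 0 := by
    intro h
    have := nontriv3Poly_natDegree h3 (sA (E⁄Qb)) (sB (E⁄Qb))
    rw [h] at this; simp at this
  obtain ⟨P, hPN, hP0, hline⟩ := exists_line 3
    (fun v : Submodule.torsionBy ℤ (E⁄Qb).Point (3 : ℕ) => sx (v : (E⁄Qb).Point))
    (nontriv3Poly (sA (E⁄Qb)) (sB (E⁄Qb))) hf0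
    (by rw [nontriv3Poly_natDegree h3]; norm_num)
    (fun v hv => by
      rw [IsRoot, nontriv3Poly_eval]
      exact rat3_root (hne v hv) (htor v))
    (fun v w hv hw h => by
      rcases (sx_eq_sx_iff six_ne_zero_Qb (hne v hv) (hne w hw)).1 h with h | h
      · exact Or.inl (Subtype.ext h)
      · exact Or.inr (Subtype.ext h))
    N h0 h1
  have hfix : ∀ σ : Qb ≃ₐ[ℚ] Qb, σ (sx (P : (E⁄Qb).Point)) = sx (P : (E⁄Qb).Point) := by
    intro σ
    obtain ⟨c, hc⟩ := hline (σ • P) (hN σ P hPN)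
    have hσ : ((σ • P : Submodule.torsionBy ℤ (E⁄Qb).Point (3 : ℕ)) : (E⁄Qb).Point)
        = σ • (P : (E⁄Qb).Point) := rfl
    rw [← sx_smul, ← hσ, hc]
    have hcval : c • P = c.val • P := by
      conv_lhs => rw [← ZMod.natCast_zmod_val c]
      rw [Nat.cast_smul_eq_nsmul]
    have hc0 : c ≠ 0 := by
      rintro rfl
      rw [zero_smul] at hc
      have : σ • (P : (E⁄Qb).Point) = 0 := by rw [← hσ, hc]; rfl
      exact hne P hP0 ((smul_eq_zero_iff' σ _).1 this)
    rw [hcval]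
    fin_cases c
    · exact absurd rfl hc0
    · show sx (((1 : ℕ) • P : Submodule.torsionBy ℤ (E⁄Qb).Point (3 : ℕ)) : (E⁄Qb).Point) = _
      rw [one_smul]
    · show sx (((2 : ℕ) • P : Submodule.torsionBy ℤ (E⁄Qb).Point (3 : ℕ)) : (E⁄Qb).Point) = _
      have h2 : ((2 : ℕ) • P : Submodule.torsionBy ℤ (E⁄Qb).Point (3 : ℕ)) = -P := by
        apply Subtype.ext
        have h3' : (2 : ℕ) • (P : (E⁄Qb).Point) + (P : (E⁄Qb).Point) = 0 := by
          have := htor P
          rwa [succ_nsmul] at this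
        exact eq_neg_of_add_eq_zero_left h3'
      rw [h2]
      exact sx_neg _
  obtain ⟨q, hq⟩ := mem_range_of_fixed _ hfix
  refine ⟨q, ?_⟩
  have hroot := rat3_root (hne P hP0) (htor P)
  rw [← hq, sA_baseChange, sB_baseChange] at hroot
  apply (algebraMap ℚ Qb).injective
  rw [_root_.map_zero, ← hroot]
  simp only [map_sub, _root_.map_add, map_mul, map_pow, map_ofNat]

end Fermat.Agent.S51Lib
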