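import Fermat.Agent.S51.Galois
import Fermat.Agent.S51.Line

set_option autoImplicit false

namespace Fermat.Agent.S51Lib

open WeierstrassCurve WeierstrassCurve.Affine WeierstrassCurve.Affine.Point Polynomial

local notation "Qb" => AlgebraicClosure ℚ

section general

variable {F : Type*} [Field F]

noncomputable def r5N (A B : F) : F[X] := X ^ 4 - C (2 * A) * X ^ 2 - C (8 * B) * X + C (A ^ 2)
noncomputable def r5M (A B : F) : F[X] := C 4 * (X ^ 3 + C A * X + C B)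
noncomputable def r5f (A B : F) : F[X] :=
  r5N A B ^ 4 - C (2 * A) * (r5N A B ^ 2 * r5M A B ^ 2) - C (8 * B) * (r5N A B * r5M A B ^ 3)
    + C (A ^ 2) * r5M A B ^ 4
    - X * r5M A B * (C 4 * (r5N A B ^ 3 + C A * (r5N A B * r5M A B ^ 2) + C B * r5M A B ^ 3))

lemma r5f_natDegree_le (A B : F) : (r5f A B).natDegree ≤ 16 := by
  unfold r5f r5N r5M
  compute_degree

lemma r5f_coeff (A B : F) : (r5f A B).coeff 16 = -15 := by
  unfold r5f r5N r5M
  compute_degree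
  all_goals norm_num

lemma r5f_ne_zero [CharZero F] (A B : F) : r5f A B ≠ 0 := by
  intro h
  have := r5f_coeff A B
  rw [h, coeff_zero] at this
  norm_num at this

lemma r5f_eval (A B X₁ X₂ : F)
    (E1 : X₂ * (4 * (X₁ ^ 3 + A * X₁ + B)) = X₁ ^ 4 - 2 * A * X₁ ^ 2 - 8 * B * X₁ + A ^ 2)
    (E2 : X₁ * (4 * (X₂ ^ 3 + A * X₂ + B)) = X₂ ^ 4 - 2 * A * X₂ ^ 2 - 8 * B * X₂ + A ^ 2) :
    (r5f A B).IsRoot X₁ := by
  rw [IsRoot.def]
  simp only [r5f, r5N, r5M, eval_sub, eval_add, eval_mul, eval_pow, eval_X, eval_C]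
  rw [← E1]
  linear_combination (-(4 * (X₁ ^ 3 + A * X₁ + B)) ^ 4) * E2

lemma five_alg [CharZero F] (A B X₁ X₂ : F) (hne : X₁ ≠ X₂)
    (E1 : X₂ * (4 * (X₁ ^ 3 + A * X₁ + B)) = X₁ ^ 4 - 2 * A * X₁ ^ 2 - 8 * B * X₁ + A ^ 2)
    (E2 : X₁ * (4 * (X₂ ^ 3 + A * X₂ + B)) = X₂ ^ 4 - 2 * A * X₂ ^ 2 - 8 * B * X₂ + A ^ 2) :
    4 * B = (X₁ + X₂) ^ 3 - 6 * (X₁ * X₂) * (X₁ + X₂) - 2 * A * (X₁ + X₂) ∧
    (A + (X₁ + X₂) ^ 2 - X₁ * X₂) ^ 2
      = (2 * (X₁ + X₂) ^ 2 + X₁ * X₂) * ((X₁ + X₂) ^ 2 - 4 * (X₁ * X₂)) := by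
  have h5a : 4 * B = (X₁ + X₂) ^ 3 - 6 * (X₁ * X₂) * (X₁ + X₂) - 2 * A * (X₁ + X₂) := by
    have hsub : X₁ - X₂ ≠ 0 := sub_ne_zero.2 hne
    apply mul_left_cancel₀ hsub
    linear_combination E1 - E2
  refine ⟨h5a, ?_⟩
  linear_combination (-1 / 2 : F) * (E1 + E2) + (3 / 2 : F) * (X₁ + X₂) * h5a

variable [DecidableEq F] {W : WeierstrassCurve F}

lemma five_data (h6 : (6 : F) ≠ 0) {P : W.toAffine.Point} (hP : P ≠ 0) (h5 : (5 : ℕ) • P = 0) :
    P + P ≠ 0 ∧ (P + P) + (P + P) = -P ∧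
    sx (P + P) * (4 * cub W (sx P)) = dupN W (sx P) ∧
    sx P * (4 * cub W (sx (P + P))) = dupN W (sx (P + P)) ∧ sx P ≠ sx (P + P) := by
  have hQ : P + P ≠ 0 := by
    intro h
    apply hP
    have : P = (5 : ℕ) • P - (P + P) - (P + P) := by abel
    rw [this, h5, h]; simp
  have h4 : (P + P) + (P + P) = -P := by
    have : (P + P) + (P + P) = (5 : ℕ) • P - P := by abel
    rw [this, h5, zero_sub]
  have h4' : (P + P) + (P + P) ≠ 0 := by
    rw [h4]; exact neg_ne_zero.2 hP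
  refine ⟨hQ, h4, sx_add_self hP hQ, ?_, ?_⟩
  · have := sx_add_self hQ h4'
    rwa [h4, sx_neg] at this
  · intro h
    rcases (sx_eq_sx_iff h6 hP hQ).1 h with h | h
    · apply hP
      have : P = (P + P) - P := by abel
      rw [this, ← h]; simp
    · apply hP
      have : P = (P + (P + P)) + (P + (P + P)) - (5 : ℕ) • P := by abel
      have h3 : P + (P + P) = 0 := by nth_rewrite 1 [h]; simp
      rw [this, h5, h3]; simp

end general

variable (E : Affine ℚ)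

lemma coe_zmod_smul (n : ℕ) [NeZero n] (c : ZMod n)
    (v : Submodule.torsionBy ℤ (E⁄Qb).Point n) :
    ((c • v : Submodule.torsionBy ℤ (E⁄Qb).Point n) : (E⁄Qb).Point)
      = c.val • (v : (E⁄Qb).Point) := by
  conv_lhs => rw [← ZMod.natCast_zmod_val c, Nat.cast_smul_eq_nsmul]
  simp

lemma nsmul_coe_torsion (n : ℕ) (v : Submodule.torsionBy ℤ (E⁄Qb).Point n) :
    n • (v : (E⁄Qb).Point) = 0 := by
  have := v.2
  rw [Submodule.mem_torsionBy_iff] at this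
  rwa [Nat.cast_smul_eq_nsmul] at this

lemma coe_galois_smul (n : ℕ) (σ : Qb ≃ₐ[ℚ] Qb) (v : Submodule.torsionBy ℤ (E⁄Qb).Point n) :
    ((σ • v : Submodule.torsionBy ℤ (E⁄Qb).Point n) : (E⁄Qb).Point) = σ • (v : (E⁄Qb).Point) :=
  rfl

variable {E} in
lemma galois_smul_add (σ : Qb ≃ₐ[ℚ] Qb) (P Q : (E⁄Qb).Point) : σ • (P + Q) = σ • P + σ • Q :=
  (Point.map σ.toAlgHom).map_add P Q

theorem exists_rat_five (hΔ : E.Δ ≠ 0)
    (N : Submodule (ZMod 5) (Submodule.torsionBy ℤ (E⁄Qb).Point (5 : ℕ)))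
    (hN : IsGaloisStable ℚ N) (h0 : N ≠ ⊥) (h1 : N ≠ ⊤) :
    ∃ s p : ℚ, 4 * (-54 * E.c₆) = s ^ 3 - 6 * p * s - 2 * (-27 * E.c₄) * s ∧
      ((-27 * E.c₄) + s ^ 2 - p) ^ 2 = (2 * s ^ 2 + p) * (s ^ 2 - 4 * p) ∧ s ^ 2 ≠ 4 * p := by
  have : Fact (Nat.Prime 5) := ⟨by norm_num⟩
  have h6 := six_ne_zero_Qb
  have hne0 : ∀ v : Submodule.torsionBy ℤ (E⁄Qb).Point (5 : ℕ), v ≠ 0 → (v : (E⁄Qb).Point) ≠ 0 :=
    fun v hv h => hv (Subtype.ext h)
  have hdata := fun (v : Submodule.torsionBy ℤ (E⁄Qb).Point (5 : ℕ)) (hv : v ≠ 0) =>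
    five_data (W := E⁄Qb) h6 (hne0 v hv) (nsmul_coe_torsion E 5 v)
  obtain ⟨P, hPN, hP0, hline⟩ := exists_line 5
    (fun v : Submodule.torsionBy ℤ (E⁄Qb).Point (5 : ℕ) => sx (W := E⁄Qb) (v : (E⁄Qb).Point))
    (r5f (sA (E⁄Qb)) (sB (E⁄Qb))) (r5f_ne_zero _ _)
    (by have := r5f_natDegree_le (sA (E⁄Qb)) (sB (E⁄Qb)); omega)
    (fun v hv => by
      obtain ⟨-, -, e1, e2, -⟩ := hdata v hv
      exact r5f_eval _ _ _ _ e1 e2)
    (fun v w hv hw h => by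
      rcases (sx_eq_sx_iff h6 (hne0 v hv) (hne0 w hw)).1 h with h | h
      · exact Or.inl (Subtype.ext h)
      · exact Or.inr (Subtype.ext h))
    N h0 h1
  obtain ⟨hQ, h4, e1, e2, hX⟩ := hdata P hP0
  have hP0' := hne0 P hP0
  have h5P := nsmul_coe_torsion E 5 P
  set P' : (E⁄Qb).Point := (P : (E⁄Qb).Point) with hP'
  -- Galois action permutes the two x-coordinates
  have hperm : ∀ σ : Qb ≃ₐ[ℚ] Qb,
      (σ (sx P') = sx P' ∧ σ (sx (P' + P')) = sx (P' + P')) ∨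
      (σ (sx P') = sx (P' + P') ∧ σ (sx (P' + P')) = sx P') := by
    intro σ
    obtain ⟨c, hc⟩ := hline (σ • P) (hN σ P hPN)
    obtain ⟨k, hk, hc'⟩ : ∃ k : ℕ, k < 5 ∧ σ • P' = k • P' := by
      refine ⟨c.val, ZMod.val_lt c, ?_⟩
      have := congrArg Subtype.val hc
      rw [coe_zmod_smul] at this
      exact this
    have hs1 : σ (sx P') = sx (k • P') := by rw [← sx_smul, hc']
    have hs2 : σ (sx (P' + P')) = sx (k • P' + k • P') := by
      rw [← sx_smul, galois_smul_add, hc']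
    interval_cases k
    · exfalso
      have : σ • P' = 0 := by rw [hc']; simp
      exact hP0' ((smul_eq_zero_iff' σ P').1 this)
    · left
      rw [one_smul] at hs1 hs2
      exact ⟨hs1, hs2⟩
    · right
      have h2 : (2 : ℕ) • P' = P' + P' := two_nsmul P'
      rw [h2] at hs1 hs2
      rw [h4, sx_neg] at hs2
      exact ⟨hs1, hs2⟩
    · right
      have h3 : (3 : ℕ) • P' = -(P' + P') := by
        have : (3 : ℕ) • P' = (5 : ℕ) • P' - (P' + P') := by abel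
        rw [this, h5P, zero_sub]
      rw [h3] at hs1 hs2
      rw [sx_neg] at hs1
      rw [← neg_add, h4, neg_neg] at hs2
      exact ⟨hs1, hs2⟩
    · left
      have h4' : (4 : ℕ) • P' = -P' := by
        have : (4 : ℕ) • P' = (P' + P') + (P' + P') := by abel
        rw [this, h4]
      rw [h4'] at hs1 hs2
      rw [sx_neg] at hs1
      rw [← neg_add, sx_neg] at hs2
      exact ⟨hs1, hs2⟩
  obtain ⟨s, hs⟩ := mem_range_of_fixed (sx P' + sx (P' + P')) (fun σ => by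
    rcases hperm σ with ⟨a, b⟩ | ⟨a, b⟩
    · rw [map_add, a, b]
    · rw [map_add, a, b, add_comm])
  obtain ⟨p, hp⟩ := mem_range_of_fixed (sx P' * sx (P' + P')) (fun σ => by
    rcases hperm σ with ⟨a, b⟩ | ⟨a, b⟩
    · rw [map_mul, a, b]
    · rw [map_mul, a, b, mul_comm])
  obtain ⟨a5, b5⟩ := five_alg (sA (E⁄Qb)) (sB (E⁄Qb)) (sx P') (sx (P' + P')) hX e1 e2
  rw [← hs, ← hp, sA_baseChange] at b5
  rw [← hs, ← hp, sA_baseChange, sB_baseChange] at a5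
  have hinj := (algebraMap ℚ Qb).injective
  refine ⟨s, p, hinj ?_, hinj ?_, ?_⟩
  · simpa using a5
  · simpa using b5
  · intro h
    apply hX
    have h' : (sx P' + sx (P' + P')) ^ 2 = 4 * (sx P' * sx (P' + P')) := by
      rw [← hs, ← hp]
      have := congrArg (algebraMap ℚ Qb) h
      simpa using this
    have : (sx P' - sx (P' + P')) ^ 2 = 0 := by linear_combination h'
    have := pow_eq_zero_iff (two_ne_zero) |>.1 this
    exact sub_eq_zero.1 this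

end Fermat.Agent.S51Lib
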