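import Mathlib

set_option autoImplicit false

/-!
Base API for S51: the shifted x-coordinate `sx P = 36 x + 3 b₂` on a Weierstrass curve, which is the
x-coordinate on the short model `Y² = X³ + A X + B`, `A = -27 c₄`, `B = -54 c₆`.
-/

namespace Fermat.Agent.S51Lib

open WeierstrassCurve WeierstrassCurve.Affine WeierstrassCurve.Affine.Point

variable {F : Type*} [Field F] (W : WeierstrassCurve F)

/-- coefficient `A` of the short model -/
def sA : F := -27 * W.c₄
/-- coefficient `B` of the short model -/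
def sB : F := -54 * W.c₆

/-- the cubic `X³ + A X + B`. -/
def cub (X : F) : F := X ^ 3 + sA W * X + sB W
/-- numerator of the duplication map. -/
def dupN (X : F) : F := X ^ 4 - 2 * sA W * X ^ 2 - 8 * sB W * X + sA W ^ 2

variable {W}

/-- shifted x-coordinate (junk value `0` at the origin). -/
def sx : W.toAffine.Point → F
  | .zero => 0
  | .some x _ _ => 36 * x + 3 * W.b₂

@[simp] lemma sx_some {x y : F} (h : W.toAffine.Nonsingular x y) :
    sx (Point.some x y h) = 36 * x + 3 * W.b₂ := rfl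

lemma sx_neg (P : W.toAffine.Point) : sx (-P) = sx P := by
  cases P <;> rfl

lemma disc_eq : -16 * (4 * sA W ^ 3 + 27 * sB W ^ 2) = 6 ^ 12 * W.Δ := by
  have := W.c_relation
  simp only [sA, sB]
  linear_combination (-1259712 : F) * this

lemma cub_eq {x y : F} (h : W.toAffine.Equation x y) :
    cub W (36 * x + 3 * W.b₂) = (108 * (2 * y + W.a₁ * x + W.a₃)) ^ 2 := by
  rw [Affine.equation_iff] at h
  simp only [cub, sA, sB, c₄, c₆, b₂, b₄, b₆]
  linear_combination (-46656 : F) * h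

/-- resultant identity: `cub` and `dupN` have no common zero when `Δ ≠ 0`. -/
lemma resultant_identity (X : F) :
    (3 * X ^ 2 + 4 * sA W) * dupN W X - (3 * X ^ 3 - 5 * sA W * X - 27 * sB W) * cub W X
      = 4 * sA W ^ 3 + 27 * sB W ^ 2 := by
  simp only [dupN, cub]; ring

omit W in
lemma dup_aux (a₁ a₂ a₃ a₄ a₆ x y : F) (hψ : 2 * y + a₁ * x + a₃ ≠ 0)
    (heq : y ^ 2 + a₁ * x * y + a₃ * y = x ^ 3 + a₂ * x ^ 2 + a₄ * x + a₆) :
    (36 * (((3 * x ^ 2 + 2 * a₂ * x + a₄ - a₁ * y) / (2 * y + a₁ * x + a₃)) ^ 2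
        + a₁ * ((3 * x ^ 2 + 2 * a₂ * x + a₄ - a₁ * y) / (2 * y + a₁ * x + a₃)) - a₂ - x - x)
        + 3 * (a₁ ^ 2 + 4 * a₂)) * (4 * (108 * (2 * y + a₁ * x + a₃)) ^ 2)
      = (36 * x + 3 * (a₁ ^ 2 + 4 * a₂)) ^ 4
        - 2 * (-27 * ((a₁ ^ 2 + 4 * a₂) ^ 2 - 24 * (2 * a₄ + a₁ * a₃)))
            * (36 * x + 3 * (a₁ ^ 2 + 4 * a₂)) ^ 2
        - 8 * (-54 * (-(a₁ ^ 2 + 4 * a₂) ^ 3 + 36 * (a₁ ^ 2 + 4 * a₂) * (2 * a₄ + a₁ * a₃)
            - 216 * (a₃ ^ 2 + 4 * a₆))) * (36 * x + 3 * (a₁ ^ 2 + 4 * a₂))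
        + (-27 * ((a₁ ^ 2 + 4 * a₂) ^ 2 - 24 * (2 * a₄ + a₁ * a₃))) ^ 2 := by
  obtain ⟨l, hl⟩ : ∃ l, l = (3 * x ^ 2 + 2 * a₂ * x + a₄ - a₁ * y) / (2 * y + a₁ * x + a₃) := ⟨_, rfl⟩
  rw [← hl]
  rw [eq_div_iff hψ] at hl
  linear_combination (-1119744 * a₁ ^ 2 - 4478976 * a₂ - 13436928 * x) * heq
    + (4 * 108 ^ 2 * 36 * ((l * (2 * y + a₁ * x + a₃) + (3 * x ^ 2 + 2 * a₂ * x + a₄ - a₁ * y))
        + a₁ * (2 * y + a₁ * x + a₃))) * hl

variable [DecidableEq F]

lemma add_self_some_of_ne {x y : F} (h : W.toAffine.Nonsingular x y)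
    (hy : 2 * y + W.a₁ * x + W.a₃ ≠ 0) :
    ∃ (x' y' : F) (h' : W.toAffine.Nonsingular x' y'),
      Point.some x y h + Point.some x y h = Point.some x' y' h' ∧
      (36 * x' + 3 * W.b₂) * (4 * cub W (36 * x + 3 * W.b₂)) = dupN W (36 * x + 3 * W.b₂) := by
  have hy' : y ≠ W.toAffine.negY x y := by
    intro hh
    apply hy
    simp only [Affine.negY] at hh
    linear_combination hh
  refine ⟨_, _, _, add_self_of_Y_ne hy', ?_⟩
  rw [cub_eq h.1, slope_of_Y_ne rfl hy']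
  have heq := (Affine.equation_iff _ _).1 h.1
  have hd : y - W.toAffine.negY x y = 2 * y + W.a₁ * x + W.a₃ := by
    simp only [Affine.negY]; ring
  rw [hd]
  exact dup_aux W.a₁ W.a₂ W.a₃ W.a₄ W.a₆ x y hy heq

lemma add_self_eq_zero_iff (h6 : (6 : F) ≠ 0) {P : W.toAffine.Point} (hP : P ≠ 0) :
    P + P = 0 ↔ cub W (sx P) = 0 := by
  have h108 : (108 : F) ≠ 0 := by
    have : (108 : F) = 6 * 6 * 3 := by norm_num
    have h3 : (3 : F) ≠ 0 := fun h => h6 (by linear_combination 2 * h)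
    rw [this]; exact mul_ne_zero (mul_ne_zero h6 h6) h3
  rcases P with _ | ⟨x, y, h⟩
  · exact absurd rfl hP
  · rw [sx_some, cub_eq h.1]
    constructor
    · intro h0
      by_contra hne
      have hy : 2 * y + W.a₁ * x + W.a₃ ≠ 0 := by
        intro hh; apply hne; rw [hh]; ring
      obtain ⟨x', y', h', he, -⟩ := add_self_some_of_ne h hy
      rw [he] at h0
      exact some_ne_zero h' h0
    · intro h0
      have hy : 2 * y + W.a₁ * x + W.a₃ = 0 := by
        have := pow_eq_zero_iff (two_ne_zero) |>.1 h0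
        exact (mul_eq_zero.1 this).resolve_left h108
      apply add_self_of_Y_eq
      simp only [Affine.negY]
      linear_combination hy

lemma sx_add_self {P : W.toAffine.Point} (hP : P ≠ 0) (h2 : P + P ≠ 0) :
    sx (P + P) * (4 * cub W (sx P)) = dupN W (sx P) := by
  rcases P with _ | ⟨x, y, h⟩
  · exact absurd rfl hP
  · have hy : 2 * y + W.a₁ * x + W.a₃ ≠ 0 := by
      intro hh
      apply h2
      apply add_self_of_Y_eq
      simp only [Affine.negY]
      linear_combination hh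
    obtain ⟨x', y', h', he, hx⟩ := add_self_some_of_ne h hy
    rw [he, sx_some, sx_some]
    exact hx

omit [DecidableEq F] in
lemma sx_eq_sx_iff (h6 : (6 : F) ≠ 0) {P Q : W.toAffine.Point} (hP : P ≠ 0) (hQ : Q ≠ 0) :
    sx P = sx Q ↔ P = Q ∨ P = -Q := by
  have h36 : (36 : F) ≠ 0 := by
    have : (36 : F) = 6 * 6 := by norm_num
    rw [this]; exact mul_ne_zero h6 h6
  rcases P with _ | ⟨x, y, h⟩
  · exact absurd rfl hP
  rcases Q with _ | ⟨x', y', h'⟩
  · exact absurd rfl hQ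
  rw [sx_some, sx_some, ← X_eq_iff]
  constructor
  · intro hh
    have : 36 * (x - x') = 0 := by linear_combination hh
    have := (mul_eq_zero.1 this).resolve_left h36
    linear_combination this
  · rintro rfl; rfl

omit [DecidableEq F] in
lemma exists_point [IsAlgClosed F] (h6 : (6 : F) ≠ 0) (hΔ : W.Δ ≠ 0) (X : F) :
    ∃ P : W.toAffine.Point, P ≠ 0 ∧ sx P = X := by
  have h36 : (36 : F) ≠ 0 := by
    have : (36 : F) = 6 * 6 := by norm_num
    rw [this]; exact mul_ne_zero h6 h6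
  have h2 : (2 : F) ≠ 0 := fun h => h6 (by linear_combination 3 * h)
  obtain ⟨x, hx⟩ : ∃ x : F, 36 * x + 3 * W.b₂ = X := ⟨(X - 3 * W.b₂) / 36, by field_simp; ring⟩
  obtain ⟨z, hz⟩ := IsAlgClosed.exists_pow_nat_eq
    (4 * x ^ 3 + W.b₂ * x ^ 2 + 2 * W.b₄ * x + W.b₆) (n := 2) (by norm_num)
  have heq : W.toAffine.Equation x ((z - W.a₁ * x - W.a₃) / 2) := by
    rw [Affine.equation_iff]
    simp only [b₂, b₄, b₆] at hz
    field_simp
    linear_combination hz
  exact ⟨Point.some x _ ((equation_iff_nonsingular_of_Δ_ne_zero hΔ).1 heq), some_ne_zero _, hx⟩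

end Fermat.Agent.S51Lib
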