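import Fermat.Prelude.Def_FLTPrelim_GaloisRep
import Fermat.Agent.S51.XCoord

set_option autoImplicit false

namespace Fermat.Agent.S51Lib

open WeierstrassCurve WeierstrassCurve.Affine WeierstrassCurve.Affine.Point

local notation "Qb" => AlgebraicClosure ℚ

variable (E : Affine ℚ)

lemma sA_baseChange : sA (E⁄Qb) = algebraMap ℚ Qb (-27 * E.c₄) := by
  simp [sA, WeierstrassCurve.baseChange]

lemma sB_baseChange : sB (E⁄Qb) = algebraMap ℚ Qb (-54 * E.c₆) := by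
  simp [sB, WeierstrassCurve.baseChange]

lemma Δ_baseChange_ne_zero (hΔ : E.Δ ≠ 0) : (E⁄Qb).Δ ≠ 0 := by
  simp [WeierstrassCurve.baseChange, hΔ]

variable {E}

lemma sx_smul (σ : Qb ≃ₐ[ℚ] Qb) (P : (E⁄Qb).Point) : sx (σ • P) = σ (sx P) := by
  rcases P with _ | ⟨x, y, h⟩
  · exact (map_zero σ).symm
  · rw [algEquiv_smul_def, map_some, sx_some, sx_some]
    simp [WeierstrassCurve.baseChange, map_ofNat]

lemma smul_eq_zero_iff' (σ : Qb ≃ₐ[ℚ] Qb) (P : (E⁄Qb).Point) : σ • P = 0 ↔ P = 0 := by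
  constructor
  · intro h
    rcases P with _ | ⟨x, y, h'⟩
    · rfl
    · exact absurd h (some_ne_zero _)
  · rintro rfl; rfl

lemma isAlgebraic_Qb : Algebra.IsAlgebraic ℚ Qb := by
  have h : @Algebra.IsAlgebraic ℚ Qb _ _ (AlgebraicClosure.instAlgebra ℚ) := inferInstance
  convert h
  exact Subsingleton.elim _ _

lemma isAlgClosure_Qb : IsAlgClosure ℚ Qb := ⟨inferInstance, isAlgebraic_Qb⟩

lemma isGalois_Qb : IsGalois ℚ Qb := by
  have := isAlgClosure_Qb
  exact IsAlgClosure.isGalois ℚ Qb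

lemma mem_range_of_fixed (x : Qb) (h : ∀ σ : Qb ≃ₐ[ℚ] Qb, σ x = x) :
    ∃ q : ℚ, algebraMap ℚ Qb q = x := by
  have := isGalois_Qb
  exact (InfiniteGalois.mem_range_algebraMap_iff_fixed x).2 h

lemma six_ne_zero_Qb : (6 : Qb) ≠ 0 := by norm_num

end Fermat.Agent.S51Lib
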